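import Mathlib
import Fermat.Prelude.Def_ExtCitation_AdmissibleExtension_v2
import Fermat.Prelude.Def_GroupCohomology_ContinuousUnramified
import Fermat.Agent.S05.Inertia
import Fermat.Agent.S05.Glue

/-!
# S14 bridge, part 1: the mod `p` cyclotomic character and `extDualModule p = F_p(χ²)`

CFT-free facts used to feed `extDualModule p` into the frozen Poitou–Tate statement (S55):

* `cycloChar_eq_one_of_fixes` : an automorphism fixing all `p`-th roots of unity has `χ = 1`;
* `inertia_fixes_root` : inertia at `q ≠ p` fixes the `p`-th roots of unity;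
* `hsm_extDualModule`, `hMur_extDualModule`, `finiteDimensional_extDualModule`.
-/

set_option autoImplicit false

namespace Fermat.Agent.S14.Bridge

open CategoryTheory Module groupCohomology ExtCitation

local notation "Qb" => AlgebraicClosure ℚ
local notation "GQ" => (AlgebraicClosure ℚ ≃ₐ[ℚ] AlgebraicClosure ℚ)

variable (p : ℕ) [Fact p.Prime]

/-- An automorphism fixing all `p`-th roots of unity has trivial mod `p` cyclotomic character. -/
theorem cycloChar_eq_one_of_fixes (σ : GQ) (h : ∀ ζ : Qb, ζ ^ p = 1 → σ ζ = ζ) :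
    cycloChar p σ = 1 := by
  have : NeZero p := ⟨(Fact.out : p.Prime).ne_zero⟩
  have : Fact (1 < p) := ⟨(Fact.out : p.Prime).one_lt⟩
  have key := modularCyclotomicCharacter.unique (L := Qb) (card_rootsOfUnity_eq_self p)
    (σ : Qb ≃+* Qb) (c := (1 : ZMod p)) (by
      intro t ht
      rw [ZMod.val_one, pow_one]
      have ht' : (t : Qb) ^ p = 1 := by
        have := (mem_rootsOfUnity p t).mp ht
        rw [← Units.val_pow_eq_pow_val, this, Units.val_one]
      exact h _ ht')
  apply Units.ext
  rw [Units.val_one]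
  exact key.symm

/-- The action on `extDualModule p = F_p(χ²)`. -/
theorem extDualModule_ρ_apply (g : GQ) (m : extDualModule p) :
    (extDualModule p).ρ g m = (((cycloChar p g : ZMod p)) ^ 2 : ZMod p) • m := by
  rfl

theorem extDualModule_ρ_eq_one_of_cycloChar (g : GQ) (h : cycloChar p g = 1) :
    (extDualModule p).ρ g = 1 := by
  ext
  rw [extDualModule_ρ_apply, h]
  simp

instance finiteDimensional_extDualModule : FiniteDimensional (ZMod p) (extDualModule p) :=
  inferInstanceAs (FiniteDimensional (ZMod p) (ZMod p))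

/-- The hypothesis `hsm` of the frozen S55 for `extDualModule p`. -/
theorem hsm_extDualModule :
    ∀ m : extDualModule p, ∃ F : IntermediateField ℚ (AlgebraicClosure ℚ),
      FiniteDimensional ℚ F ∧ ∀ s ∈ F.fixingSubgroup, (extDualModule p).ρ s m = m := by
  intro m
  have hp0 : 0 < p := (Fact.out : p.Prime).pos
  have hfin : Set.Finite {ζ : Qb | ζ ^ p = 1} := by
    have h1 : {ζ : Qb | ζ ^ p = 1} ⊆ ((Polynomial.nthRoots p (1 : Qb)).toFinset : Set Qb) := by
      intro ζ hζ
      simp only [Finset.mem_coe, Multiset.mem_toFinset]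
      rw [Polynomial.mem_nthRoots hp0]
      exact hζ
    exact (Finset.finite_toSet _).subset h1
  have : Finite {ζ : Qb | ζ ^ p = 1} := hfin
  refine ⟨IntermediateField.adjoin ℚ {ζ : Qb | ζ ^ p = 1}, ?_, ?_⟩
  · exact IntermediateField.finiteDimensional_adjoin
      (fun x _ => ((AlgebraicClosure.isAlgebraic ℚ).isAlgebraic x).isIntegral)
  · intro s hs
    have hχ : cycloChar p s = 1 := by
      apply cycloChar_eq_one_of_fixes
      intro ζ hζ
      exact (IntermediateField.mem_fixingSubgroup_iff _ _).mp hs ζ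
        (IntermediateField.subset_adjoin ℚ _ hζ)
    rw [extDualModule_ρ_eq_one_of_cycloChar p s hχ]
    rfl

/-- Inertia at a prime `q ≠ p` fixes the `p`-th roots of unity. -/
theorem inertia_fixes_root {q : ℕ} (hq : q.Prime) (hqp : q ≠ p)
    (A : ValuationSubring Qb) (hA : A.LiesOverPrime q) (g : GQ)
    (hg : g ∈ A.inertiaSubgroupIn ℚ) (ζ : Qb) (hζ : ζ ^ p = 1) : g ζ = ζ := by
  have hp : p.Prime := Fact.out
  have hp0 : p ≠ 0 := hp.ne_zero
  -- valuation of a root of unity is one
  have hv1 : ∀ x : Qb, x ^ p = 1 → A.valuation x = 1 := by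
    intro x hx
    have h1 : A.valuation x ^ p = 1 := by rw [← map_pow, hx, map_one]
    exact (pow_eq_one_iff.mp h1).resolve_right hp0
  have hζA : ζ ∈ A := (A.valuation_le_one_iff ζ).mp (hv1 ζ hζ).le
  have hζ0 : ζ ≠ 0 := by
    rintro rfl
    rw [zero_pow hp0] at hζ
    exact zero_ne_one hζ
  set η : Qb := g ζ * ζ⁻¹ with hη
  have hηp : η ^ p = 1 := by
    rw [hη, mul_pow, ← map_pow, hζ, map_one, one_mul, inv_pow, hζ, inv_one]
  by_contra hne
  have hη1 : η ≠ 1 := by
    intro h1
    apply hne
    have : g ζ = η * ζ := by rw [hη, inv_mul_cancel_right₀ hζ0]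
    rw [this, h1, one_mul]
  have hηA : η ∈ A := (A.valuation_le_one_iff η).mp (hv1 η hηp).le
  -- `g ζ - ζ = ζ (η - 1)` is a non-unit
  have hnon : A.valuation (g ζ - ζ) < 1 := by
    rw [← ValuationSubring.mem_nonunits_iff]
    exact Fermat.Agent.S05.Inertia.sub_mem_nonunits A hg hζA
  have hval : A.valuation (η - 1) < 1 := by
    have h2 : g ζ - ζ = ζ * (η - 1) := by
      rw [hη]; field_simp
    rw [h2, map_mul, hv1 ζ hζ, one_mul] at hnon
    exact hnon
  -- `p` is divisible by `η - 1` in `A`
  let η' : A := ⟨η, hηA⟩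
  have hsum : (∑ j ∈ Finset.range p, η' ^ j) = 0 := by
    have h3 : (η' - 1) * (∑ j ∈ Finset.range p, η' ^ j) = 0 := by
      rw [mul_comm, geom_sum_mul]
      apply Subtype.ext
      simp [η', hηp]
    have h4 : η' - 1 ≠ 0 := by
      intro h
      apply hη1
      have := congrArg (Subtype.val) h
      simpa [η', sub_eq_zero] using this
    exact (mul_eq_zero.mp h3).resolve_left h4
  have hdvd : η' - 1 ∣ (0 : A) - (p : A) := by
    have h5 := Polynomial.sub_dvd_eval_sub η' 1 (∑ j ∈ Finset.range p, (Polynomial.X : Polynomial A) ^ j)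
    simp only [Polynomial.eval_finsetSum, Polynomial.eval_pow, Polynomial.eval_X, one_pow,
      Finset.sum_const, Finset.card_range, nsmul_eq_mul, mul_one] at h5
    rw [hsum] at h5
    exact h5
  obtain ⟨w, hw⟩ := hdvd
  have hpval : A.valuation (p : Qb) ≤ A.valuation (η - 1) := by
    have h6 : (p : Qb) = -((η - 1) * (w : Qb)) := by
      have := congrArg (Subtype.val) hw
      simp only [zero_sub] at this
      have h7 : ((-(p : A) : A) : Qb) = -(p : Qb) := by simp
      have h8 : (((η' - 1) * w : A) : Qb) = (η - 1) * (w : Qb) := by simp [η']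
      rw [h7, h8] at this
      rw [← this, neg_neg]
    rw [h6, Valuation.map_neg, map_mul]
    calc A.valuation (η - 1) * A.valuation (w : Qb) ≤ A.valuation (η - 1) * 1 :=
          mul_le_mul' le_rfl ((A.valuation_le_one_iff _).mpr w.2)
      _ = A.valuation (η - 1) := mul_one _
  have hp1 : A.valuation (p : Qb) = 1 := by
    have h9 := (Fermat.Agent.S05.val_intCast_eq_one_iff (K := Qb) A hq hA (p : ℤ)).mpr (by
      intro hdiv
      have : q ∣ p := by exact_mod_cast hdiv
      exact hqp ((Nat.prime_dvd_prime_iff_eq hq hp).mp this))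
    simpa using h9
  rw [hp1] at hpval
  exact absurd hval (not_lt.mpr hpval)

/-- The hypothesis `hMur` of the frozen S55 for `extDualModule p`, `S = pSet p`. -/
theorem hMur_extDualModule :
    ∀ q : Nat.Primes, q ∉ pSet p → ∀ A : ValuationSubring (AlgebraicClosure ℚ),
      A.LiesOverPrime (q : ℕ) → ∀ g ∈ A.inertiaSubgroupIn ℚ, (extDualModule p).ρ g = 1 := by
  intro q hq A hA g hg
  have hqp : (q : ℕ) ≠ p := by
    intro h
    apply hq
    rw [pSet, Finset.mem_singleton]
    exact Subtype.ext h
  apply extDualModule_ρ_eq_one_of_cycloChar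
  apply cycloChar_eq_one_of_fixes
  intro ζ hζ
  exact inertia_fixes_root p q.2 hqp A hA g hg ζ hζ

end Fermat.Agent.S14.Bridge
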