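import Mathlib
import Fermat.Prelude.Def_ExtCitation_AdmissibleExtension_v2
import Fermat.Prelude.Def_ExtCitation_KummerBridge
import Fermat.Prelude.Def_ClassGroup_GaloisAction
import Fermat.Prelude.Def_Stickelberger_Basic

/-!
# S14 plan: contracts for the early exit from the class field theory program

Route.  A non-split admissible extension gives an everywhere unramified Galois extension
`L / K`, `K = ℚ(ζ_p)`, of degree `p`, on whose Galois group `Gal(K/ℚ)` acts through the inverse
of the cyclotomic character (`KernelStmt` + `FieldStmt` give `BridgeStmt`).  Artin reciprocity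
for `L / K` (`ArtinStmt`) gives an equivariant surjection from the class group, hence a nonzero
eigenvector in `Cl(K)/p` (`CoreStmt`), which Stickelberger's theorem forbids (`StickStmt`,
proved from `JacobiFactorStmt`).

Only `ArtinStmt` depends on class field theory; every other contract is elementary.
-/

set_option autoImplicit false

open scoped NumberField nonZeroDivisors

namespace Fermat.Agent.S14.Plan

open ExtCitation

/-- (c), first half: the Jacobi sum factorisation at degree one primes. -/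
def JacobiFactorStmt (p : ℕ) [Fact p.Prime] : Prop :=
  p ≠ 2 → ∀ (K : Type) [Field K] [NumberField K] [IsCyclotomicExtension {p} ℚ K]
    (Q : Ideal (𝓞 K)) [Q.IsPrime], Q ≠ ⊥ → ∀ q : ℕ, q.Prime → (q : 𝓞 K) ∈ Q → q % p = 1 →
    ∃ J : 𝓞 K, Ideal.span {J} = ∏ c ∈ Stickelberger.exponentSet p,
      Q.map ((JacobiSumStickelberger.clRingAction p K (Stickelberger.expUnit p c)⁻¹ :
        𝓞 K ≃+* 𝓞 K) : 𝓞 K →+* 𝓞 K)

/-- (c): the `ω⁻¹`-eigenspace of `Cl(ℚ(ζ_p))/p` vanishes. -/
def StickStmt (p : ℕ) [Fact p.Prime] : Prop :=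
  p ≠ 2 → ∀ (K : Type) [Field K] [NumberField K] [IsCyclotomicExtension {p} ℚ K]
    (a : JacobiSumStickelberger.ClGalModule p (𝓞 K)),
    Stickelberger.IsOmegaEigenvector (JacobiSumStickelberger.clGalAction p K) (p - 2) a → a = 0

/-- (b): Artin reciprocity for an everywhere unramified Galois extension `L / K` of prime
degree `p` of a totally complex number field `K` containing the `p`-th roots of unity: the
Frobenius elements define a surjective homomorphism on the class group. -/
def ArtinStmt (p : ℕ) [Fact p.Prime] : Prop :=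
  ∀ (K L : Type) [Field K] [Field L] [NumberField K] [NumberField L] [Algebra K L]
    [IsGalois K L],
    (∃ ζ : K, IsPrimitiveRoot ζ p) →
    Module.finrank K L = p →
    (∀ w : NumberField.InfinitePlace K, w.IsComplex) →
    (∀ Q : Ideal (𝓞 L), Q.IsPrime → Q ≠ ⊥ → Q.inertia (L ≃ₐ[K] L) = ⊥) →
    ∃ Art : ClassGroup (𝓞 K) →* (L ≃ₐ[K] L), Function.Surjective Art ∧
      ∀ (P : (Ideal (𝓞 K))⁰) (Q : Ideal (𝓞 L)), (P : Ideal (𝓞 K)).IsPrime → Q.IsPrime →
        Q.under (𝓞 K) = P → IsArithFrobAt (𝓞 K) (Art (ClassGroup.mk0 P)) Q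

/-- The group theoretic datum extracted from a non-split admissible extension: `N` is the
kernel of the action, an open normal subgroup of index `p` in the kernel of the cyclotomic
character, on which conjugation acts through the inverse cyclotomic character, and which
contains the intersection of every inertia group with the kernel of the cyclotomic character. -/
def IsKernelDatum (p : ℕ) [Fact p.Prime]
    (N : Subgroup (AlgebraicClosure ℚ ≃ₐ[ℚ] AlgebraicClosure ℚ)) : Prop :=
  N.Normal ∧ IsOpen (N : Set (AlgebraicClosure ℚ ≃ₐ[ℚ] AlgebraicClosure ℚ)) ∧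
  N ≤ (cycloChar p).ker ∧ N.relIndex (cycloChar p).ker = p ∧
  (∀ σ τ : AlgebraicClosure ℚ ≃ₐ[ℚ] AlgebraicClosure ℚ, τ ∈ (cycloChar p).ker →
    σ * τ * σ⁻¹ * (τ ^ (((cycloChar p σ)⁻¹ : (ZMod p)ˣ) : ZMod p).val)⁻¹ ∈ N) ∧
  (∀ ℓ : ℕ, ℓ.Prime → ∀ A : ValuationSubring (AlgebraicClosure ℚ), A.LiesOverPrime ℓ →
    A.inertiaSubgroupIn ℚ ⊓ (cycloChar p).ker ≤ N)

/-- (a), first half: a non-split admissible extension produces a kernel datum. -/
def KernelStmt (p : ℕ) [Fact p.Prime] : Prop :=
  3 ≤ p → ∀ (V : Type) [AddCommGroup V] [Module (ZMod p) V]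
    [DistribMulAction (AlgebraicClosure ℚ ≃ₐ[ℚ] AlgebraicClosure ℚ) V]
    [SMulCommClass (AlgebraicClosure ℚ ≃ₐ[ℚ] AlgebraicClosure ℚ) (ZMod p) V]
    (C : Submodule (ZMod p) V),
    IsAdmissibleExtensionCts p V C → ¬ SplitsGlobally C → ∃ N, IsKernelDatum p N

/-- The number field datum: `K` is the `p`-th cyclotomic field, `L / K` is Galois of degree `p`
and unramified at every finite prime, and every automorphism `σ_d` of `K` lifts to a ring
automorphism of `L` conjugating `τ ∈ Gal(L/K)` to `τ ^ (d⁻¹)`. -/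
structure FieldDatum (p : ℕ) [Fact p.Prime] where
  K : Type
  L : Type
  [fieldK : Field K]
  [fieldL : Field L]
  [nfK : NumberField K]
  [nfL : NumberField L]
  [alg : Algebra K L]
  [gal : IsGalois K L]
  [cyc : IsCyclotomicExtension {p} ℚ K]
  finrank_eq : Module.finrank K L = p
  unram : ∀ Q : Ideal (𝓞 L), Q.IsPrime → Q ≠ ⊥ → Q.inertia (L ≃ₐ[K] L) = ⊥
  lift : ∀ d : (ZMod p)ˣ, ∃ s : L ≃+* L,
    (∀ x : K, s (algebraMap K L x) =
      algebraMap K L ((JacobiSumStickelberger.cycloGalEquiv p K).symm d x)) ∧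
    ∀ (τ : L ≃ₐ[K] L) (x : L), s (τ (s.symm x)) = (τ ^ (((d⁻¹ : (ZMod p)ˣ) : ZMod p)).val) x

attribute [instance] FieldDatum.fieldK FieldDatum.fieldL FieldDatum.nfK FieldDatum.nfL
  FieldDatum.alg FieldDatum.gal FieldDatum.cyc

/-- (a), second half: a kernel datum is realised by number fields. -/
def FieldStmt (p : ℕ) [Fact p.Prime] : Prop :=
  3 ≤ p → ∀ N, IsKernelDatum p N → Nonempty (FieldDatum p)

/-- (a): a non-split admissible extension produces a field datum. -/
def BridgeStmt (p : ℕ) [Fact p.Prime] : Prop :=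
  3 ≤ p → ∀ (V : Type) [AddCommGroup V] [Module (ZMod p) V]
    [DistribMulAction (AlgebraicClosure ℚ ≃ₐ[ℚ] AlgebraicClosure ℚ) V]
    [SMulCommClass (AlgebraicClosure ℚ ≃ₐ[ℚ] AlgebraicClosure ℚ) (ZMod p) V]
    (C : Submodule (ZMod p) V),
    IsAdmissibleExtensionCts p V C → ¬ SplitsGlobally C → Nonempty (FieldDatum p)

/-- The core: Artin reciprocity and Stickelberger exclude every field datum. -/
def CoreStmt (p : ℕ) [Fact p.Prime] : Prop :=
  3 ≤ p → ArtinStmt p → StickStmt p → FieldDatum p → False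

theorem bridgeStmt_of_kernel_of_field {p : ℕ} [Fact p.Prime] (hK : KernelStmt p)
    (hF : FieldStmt p) : BridgeStmt p := by
  intro h3 V _ _ _ _ C hadm hns
  obtain ⟨N, hN⟩ := hK h3 V C hadm hns
  exact hF h3 N hN

theorem extVanishingCts_of_plan {p : ℕ} [Fact p.Prime] (h3 : 3 ≤ p) (hB : BridgeStmt p)
    (hC : CoreStmt p) (hA : ArtinStmt p) (hS : StickStmt p) : ExtVanishingCts p := by
  intro V _ _ _ _ C hadm
  by_contra hns
  obtain ⟨D⟩ := hB h3 V C hadm hns
  exact hC h3 hA hS D

/-! ## Additions (v2): the Thaine route (lead decision, board row 1116)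

The bridge now also records that the primes over `p` split completely in `L / K`, and produces
a singular primary number of type `ω²`; the arithmetic core (owned by the S14 lead) shows that
no such number exists.  Everything above is unchanged. -/

section Thaine

open scoped Pointwise

/-- A kernel datum in which moreover every decomposition group over `p` meets the kernel of the
cyclotomic character inside `N` (the primes over `p` split completely in `L / K`). -/
def IsSplitKernelDatum (p : ℕ) [Fact p.Prime]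
    (N : Subgroup (AlgebraicClosure ℚ ≃ₐ[ℚ] AlgebraicClosure ℚ)) : Prop :=
  IsKernelDatum p N ∧
  ∀ A : ValuationSubring (AlgebraicClosure ℚ), A.LiesOverPrime p →
    A.decompositionSubgroup ℚ ⊓ (cycloChar p).ker ≤ N

/-- (a), first half, with splitting at `p`. -/
def KernelSplitStmt (p : ℕ) [Fact p.Prime] : Prop :=
  3 ≤ p → ∀ (V : Type) [AddCommGroup V] [Module (ZMod p) V]
    [DistribMulAction (AlgebraicClosure ℚ ≃ₐ[ℚ] AlgebraicClosure ℚ) V]
    [SMulCommClass (AlgebraicClosure ℚ ≃ₐ[ℚ] AlgebraicClosure ℚ) (ZMod p) V]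
    (C : Submodule (ZMod p) V),
    IsAdmissibleExtensionCts p V C → ¬ SplitsGlobally C → ∃ N, IsSplitKernelDatum p N

/-- The primes of `L` over `p` have trivial decomposition group in `Gal(L/K)`. -/
def FieldDatum.SplitAtP {p : ℕ} [Fact p.Prime] (D : FieldDatum p) : Prop :=
  ∀ Q : Ideal (𝓞 D.L), Q.IsPrime → (p : 𝓞 D.L) ∈ Q →
    ∀ τ : D.L ≃ₐ[D.K] D.L, τ • Q = Q → τ = 1

/-- (a), second half, with splitting at `p`. -/
def FieldSplitStmt (p : ℕ) [Fact p.Prime] : Prop :=
  3 ≤ p → ∀ N, IsSplitKernelDatum p N → ∃ D : FieldDatum p, D.SplitAtP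

/-- `α` is a singular primary number of type `ω²` in the `p`-th cyclotomic field `K`:
not a `p`-th power, `σ_b α = α ^ (b ^ 2)` up to `p`-th powers, the principal ideal `(α)` is a
`p`-th power, `α` is prime to `1 - ζ` and is a `p`-th power modulo `(1 - ζ) ^ 3`. -/
structure IsSingularPrimary (p : ℕ) (K : Type) [Field K] [NumberField K] (ζ α : 𝓞 K) : Prop where
  not_pow : ¬ ∃ β : K, (α : K) = β ^ p
  eigen : ∀ (σ : K ≃ₐ[ℚ] K) (b : ℕ), σ (ζ : K) = (ζ : K) ^ b →
    ∃ γ : K, σ (α : K) = (α : K) ^ (b ^ 2) * γ ^ p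
  span_eq : ∃ 𝔞 : Ideal (𝓞 K), Ideal.span {α} = 𝔞 ^ p
  not_mem : α ∉ Ideal.span {1 - ζ}
  primary : ∃ y : 𝓞 K, α - y ^ p ∈ Ideal.span {(1 - ζ) ^ 3}

/-- (a), third half: the Kummer generator of a split field datum is singular primary. -/
def KummerStmt (p : ℕ) [Fact p.Prime] : Prop :=
  3 ≤ p → ∀ D : FieldDatum p, D.SplitAtP →
    ∃ ζ α : 𝓞 D.K, IsPrimitiveRoot ζ p ∧ IsSingularPrimary p D.K ζ α

/-- The arithmetic core of the Thaine route: there is no singular primary number of type `ω²`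
in the `p`-th cyclotomic field. -/
def NoSingularPrimaryStmt (p : ℕ) [Fact p.Prime] : Prop :=
  3 ≤ p → ∀ (K : Type) [Field K] [NumberField K] [IsCyclotomicExtension {p} ℚ K]
    (ζ α : 𝓞 K), IsPrimitiveRoot ζ p → ¬ IsSingularPrimary p K ζ α

theorem extVanishingCts_of_thaine {p : ℕ} [Fact p.Prime] (h3 : 3 ≤ p)
    (hK : KernelSplitStmt p) (hF : FieldSplitStmt p) (hG : KummerStmt p)
    (hN : NoSingularPrimaryStmt p) : ExtVanishingCts p := by
  intro V _ _ _ _ C hadm
  by_contra hns
  obtain ⟨N, hNd⟩ := hK h3 V C hadm hns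
  obtain ⟨D, hD⟩ := hF h3 N hNd
  obtain ⟨ζ, α, hζ, hα⟩ := hG h3 D hD
  exact hN h3 D.K ζ α hζ hα

end Thaine

/-! ## Additions (v2): the ideal theoretic backup route

`ArtinStmt` is only ever applied to the fields of a `FieldDatum`, so it is enough to know it
for the `p`-th cyclotomic field. -/

/-- `ArtinStmt` for the fields of a field datum. -/
def ArtinCycStmt (p : ℕ) [Fact p.Prime] : Prop :=
  3 ≤ p → ∀ D : FieldDatum p,
    ∃ Art : ClassGroup (𝓞 D.K) →* (D.L ≃ₐ[D.K] D.L), Function.Surjective Art ∧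
      ∀ (P : (Ideal (𝓞 D.K))⁰) (Q : Ideal (𝓞 D.L)), (P : Ideal (𝓞 D.K)).IsPrime → Q.IsPrime →
        Q.under (𝓞 D.K) = P → IsArithFrobAt (𝓞 D.K) (Art (ClassGroup.mk0 P)) Q

/-- The core against `ArtinCycStmt`. -/
def CoreCycStmt (p : ℕ) [Fact p.Prime] : Prop :=
  3 ≤ p → ArtinCycStmt p → StickStmt p → FieldDatum p → False

theorem extVanishingCts_of_plan_cyc {p : ℕ} [Fact p.Prime] (h3 : 3 ≤ p) (hB : BridgeStmt p)
    (hC : CoreCycStmt p) (hA : ArtinCycStmt p) (hS : StickStmt p) : ExtVanishingCts p := by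
  intro V _ _ _ _ C hadm
  by_contra hns
  obtain ⟨D⟩ := hB h3 V C hadm hns
  exact hC h3 hA hS D

end Fermat.Agent.S14.Plan
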