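import Fermat.Agent.CFT.Bridge.PlaceDict

/-!
# S14 [FieldUnram] (helper41)

For a finite Galois `L0/ℚ` inside `Q̄`: an automorphism of `L0` in the (Mathlib) inertia group of a
nonzero prime `Q` of `𝓞 L0` is the restriction of an element of the (Prelude) inertia subgroup
of a valuation subring `A` of `Q̄` over a rational prime; and the decomposition-group twin.
Corollaries of the place dictionary `Fermat.Agent.CFT.PlaceDict`.
-/

set_option autoImplicit false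

namespace Fermat.Agent.S14.FieldUnram

open scoped Pointwise NumberField
open Fermat.Agent.Lib.InertiaLift Fermat.Agent.CFT.PlaceDict

/-- a nonzero prime of `𝓞 L0` contains a rational prime -/
theorem exists_prime_natCast_mem (L0 : Type*) [Field L0] [NumberField L0] (Q : Ideal (𝓞 L0))
    (hQ : Q.IsPrime) (hQ0 : Q ≠ ⊥) : ∃ ℓ : ℕ, ℓ.Prime ∧ ((ℓ : ℕ) : 𝓞 L0) ∈ Q := by
  have : NeZero Q := ⟨hQ0⟩
  exact ⟨Ideal.absNorm (Q.under ℤ), Nat.absNorm_under_prime Q, Int.absNorm_under_mem Q⟩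

/-- the valuation subrings of `Q̄` centred at a prime `Q` of `𝓞 L0` containing `ℓ` lie over `ℓ` -/
theorem liesOverPrime_of_centerAt_eq (L0 : IntermediateField ℚ (AlgebraicClosure ℚ))
    (A : ValuationSubring (AlgebraicClosure ℚ)) (ℓ : ℕ)
    (h : ((ℓ : ℕ) : 𝓞 L0) ∈ centerAt L0 A) : A.LiesOverPrime ℓ := by
  rw [mem_centerAt] at h
  show ((ℓ : ℕ) : AlgebraicClosure ℚ) ∈ A.nonunits
  simpa using h

/-- **[FieldUnram], inertia.** An element `τ` of `Gal(L0/ℚ)` acting trivially on `𝓞 L0 / Q`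
(`Q` a nonzero prime) is the restriction of an inertia element at a valuation subring of `Q̄`
lying over a rational prime `ℓ`; moreover `ℓ ∈ Q` and `Q` is the centre of `A`. -/
theorem exists_inertia_restrict' (L0 : IntermediateField ℚ (AlgebraicClosure ℚ))
    [FiniteDimensional ℚ L0] [IsGalois ℚ L0] (Q : Ideal (𝓞 L0)) (hQ : Q.IsPrime) (hQ0 : Q ≠ ⊥)
    (τ : L0 ≃ₐ[ℚ] L0) (hτ : ∀ x : 𝓞 L0, τ • x - x ∈ Q) :
    ∃ (ℓ : ℕ) (A : ValuationSubring (AlgebraicClosure ℚ))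
      (σ : AlgebraicClosure ℚ ≃ₐ[ℚ] AlgebraicClosure ℚ),
      ℓ.Prime ∧ A.LiesOverPrime ℓ ∧ ((ℓ : ℕ) : 𝓞 L0) ∈ Q ∧ centerAt L0 A = Q ∧
        σ ∈ A.inertiaSubgroupIn ℚ ∧ ∀ x : L0, σ (x : AlgebraicClosure ℚ) = (τ x : AlgebraicClosure ℚ) := by
  have hnf : NumberField L0 :=
    { to_charZero := inferInstance, to_finiteDimensional := inferInstance }
  obtain ⟨ℓ, hℓ, hℓQ⟩ := exists_prime_natCast_mem L0 Q hQ hQ0
  obtain ⟨A, rfl⟩ := exists_centerAt_eq L0 Q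
  have hτ' : τ ∈ (centerAt L0 A).inertia (L0 ≃ₐ[ℚ] L0) := fun x => hτ x
  obtain ⟨σ, hσ, hσr⟩ := exists_mem_inertia_res_eq L0 A τ hτ'
  refine ⟨ℓ, A, σ, hℓ, liesOverPrime_of_centerAt_eq L0 A ℓ hℓQ, hℓQ, rfl, hσ, fun x => ?_⟩
  rw [← hσr, coe_res]

/-- **[FieldUnram], inertia** (the signature consumed by `S14/Field.lean`). -/
theorem exists_inertia_restrict (L0 : IntermediateField ℚ (AlgebraicClosure ℚ))
    [FiniteDimensional ℚ L0] [IsGalois ℚ L0] (Q : Ideal (𝓞 L0)) (hQ : Q.IsPrime) (hQ0 : Q ≠ ⊥)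
    (τ : L0 ≃ₐ[ℚ] L0) (hτ : ∀ x : 𝓞 L0, τ • x - x ∈ Q) :
    ∃ (ℓ : ℕ) (A : ValuationSubring (AlgebraicClosure ℚ))
      (σ : AlgebraicClosure ℚ ≃ₐ[ℚ] AlgebraicClosure ℚ),
      ℓ.Prime ∧ A.LiesOverPrime ℓ ∧ σ ∈ A.inertiaSubgroupIn ℚ ∧
        ∀ x : L0, σ (x : AlgebraicClosure ℚ) = (τ x : AlgebraicClosure ℚ) := by
  obtain ⟨ℓ, A, σ, h1, h2, -, -, h3, h4⟩ := exists_inertia_restrict' L0 Q hQ hQ0 τ hτ
  exact ⟨ℓ, A, σ, h1, h2, h3, h4⟩

/-- **[FieldUnram], decomposition twin.** An element `τ` of `Gal(L0/ℚ)` stabilising a prime `Q`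
of `𝓞 L0` which contains the rational integer `ℓ` is the restriction of an element of the
decomposition subgroup of a valuation subring `A` of `Q̄` lying over `ℓ` (with centre `Q`). -/
theorem exists_decomposition_restrict (L0 : IntermediateField ℚ (AlgebraicClosure ℚ))
    [FiniteDimensional ℚ L0] [IsGalois ℚ L0] (Q : Ideal (𝓞 L0)) (hQ : Q.IsPrime)
    (ℓ : ℕ) (hℓQ : ((ℓ : ℕ) : 𝓞 L0) ∈ Q) (τ : L0 ≃ₐ[ℚ] L0) (hτ : τ • Q = Q) :
    ∃ (A : ValuationSubring (AlgebraicClosure ℚ))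
      (σ : AlgebraicClosure ℚ ≃ₐ[ℚ] AlgebraicClosure ℚ),
      A.LiesOverPrime ℓ ∧ centerAt L0 A = Q ∧ σ ∈ A.decompositionSubgroup ℚ ∧
        ∀ x : L0, σ (x : AlgebraicClosure ℚ) = (τ x : AlgebraicClosure ℚ) := by
  have hnf : NumberField L0 :=
    { to_charZero := inferInstance, to_finiteDimensional := inferInstance }
  obtain ⟨A, rfl⟩ := exists_centerAt_eq L0 Q
  have hτ' : τ ∈ MulAction.stabilizer (L0 ≃ₐ[ℚ] L0) (centerAt L0 A) := hτ
  obtain ⟨σ, hσ, hσr⟩ := exists_mem_decomposition_res_eq L0 A τ hτ'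
  refine ⟨A, σ, liesOverPrime_of_centerAt_eq L0 A ℓ hℓQ, rfl, hσ, fun x => ?_⟩
  rw [← hσr, coe_res]

/-- the decomposition twin with the stabiliser hypothesis in elementwise form -/
theorem exists_decomposition_restrict_of_forall_mem (L0 : IntermediateField ℚ (AlgebraicClosure ℚ))
    [FiniteDimensional ℚ L0] [IsGalois ℚ L0] (Q : Ideal (𝓞 L0)) (hQ : Q.IsPrime)
    (ℓ : ℕ) (hℓQ : ((ℓ : ℕ) : 𝓞 L0) ∈ Q) (τ : L0 ≃ₐ[ℚ] L0) (hτ : ∀ x ∈ Q, τ • x ∈ Q) :
    ∃ (A : ValuationSubring (AlgebraicClosure ℚ))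
      (σ : AlgebraicClosure ℚ ≃ₐ[ℚ] AlgebraicClosure ℚ),
      A.LiesOverPrime ℓ ∧ centerAt L0 A = Q ∧ σ ∈ A.decompositionSubgroup ℚ ∧
        ∀ x : L0, σ (x : AlgebraicClosure ℚ) = (τ x : AlgebraicClosure ℚ) := by
  have hnf : NumberField L0 :=
    { to_charZero := inferInstance, to_finiteDimensional := inferInstance }
  refine exists_decomposition_restrict L0 Q hQ ℓ hℓQ τ ?_
  -- `τ • Q ≤ Q` and both are maximal or both are `⊥`
  have hle : τ • Q ≤ Q := by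
    intro y hy
    rw [Ideal.mem_pointwise_smul_iff_inv_smul_mem] at hy
    have h := hτ _ hy
    simpa using h
  by_cases hQ0 : Q = ⊥
  · subst hQ0
    simp
  · have hτQ0 : τ • Q ≠ ⊥ := by
      intro h
      apply hQ0
      have := congrArg (fun I => τ⁻¹ • I) h
      simpa using this
    have hprime : (τ • Q).IsPrime := inferInstance
    have hmax : (τ • Q).IsMaximal := hprime.isMaximal hτQ0
    exact hmax.eq_of_le hQ.ne_top hle

end Fermat.Agent.S14.FieldUnram
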