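import Mathlib
import Fermat.Agent.S14.Plan
import Fermat.Agent.S14.FieldUnram

/-!
# S14 [Field]: a kernel datum is realised by number fields

For a kernel datum `N` (`Plan.IsKernelDatum p N`) we take, inside `Q̄ = AlgebraicClosure ℚ`,

* `K0 p = ℚ⟮ζ⟯`, the `p`-th cyclotomic field, whose fixing subgroup is the kernel of the mod `p`
  cyclotomic character (`fixingSubgroup_K0`), and
* `L0 N`, the fixed field of `N`,

and prove that `L0 N / K0 p` is Galois of degree `p`, unramified at every finite prime, and that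
the automorphisms of `K0 p` lift to `L0 N` with the prescribed conjugation action on
`Gal(L0 N / K0 p)`.  This gives `fieldStmt : Plan.FieldStmt p`; with the splitting hypothesis at
`p` it gives `fieldSplitStmt : Plan.FieldSplitStmt p`.
-/

set_option autoImplicit false

open scoped NumberField Pointwise

namespace Fermat.Agent.S14.Field

open ExtCitation

local notation "Qb" => AlgebraicClosure ℚ
local notation "GQ" => (AlgebraicClosure ℚ ≃ₐ[ℚ] AlgebraicClosure ℚ)

variable (p : ℕ) [Fact p.Prime]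

/-- The defining property of the mod `p` cyclotomic character. -/
theorem cycloChar_spec (σ : GQ) {ζ : Qb} (hζ : ζ ^ p = 1) :
    σ ζ = ζ ^ ((cycloChar p σ : (ZMod p)ˣ) : ZMod p).val := by
  have : NeZero p := ⟨(Fact.out : p.Prime).ne_zero⟩
  have hζ0 : ζ ≠ 0 := by
    rintro rfl
    rw [zero_pow (NeZero.ne p)] at hζ
    exact zero_ne_one hζ
  have hmem : (Units.mk0 ζ hζ0) ∈ rootsOfUnity p Qb := by
    rw [mem_rootsOfUnity]
    apply Units.ext
    rw [Units.val_pow_eq_pow_val, Units.val_mk0, hζ, Units.val_one]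
  exact modularCyclotomicCharacter.spec Qb (card_rootsOfUnity_eq_self p)
    (σ : Qb ≃+* Qb) hmem

theorem exists_primitiveRoot : ∃ ζ : Qb, IsPrimitiveRoot ζ p := by
  have : NeZero p := ⟨(Fact.out : p.Prime).ne_zero⟩
  have : NeZero (p : Qb) := ⟨Nat.cast_ne_zero.mpr (NeZero.ne p)⟩
  exact HasEnoughRootsOfUnity.exists_primitiveRoot Qb p

/-- A chosen primitive `p`-th root of unity in `Q̄`. -/
noncomputable def zeta : Qb := (exists_primitiveRoot p).choose

theorem zeta_spec : IsPrimitiveRoot (zeta p) p := (exists_primitiveRoot p).choose_spec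

theorem cycloChar_eq_one_iff (σ : GQ) : cycloChar p σ = 1 ↔ σ (zeta p) = zeta p := by
  have : NeZero p := ⟨(Fact.out : p.Prime).ne_zero⟩
  have : Fact (1 < p) := ⟨(Fact.out : p.Prime).one_lt⟩
  constructor
  · intro h
    rw [cycloChar_spec p σ (zeta_spec p).pow_eq_one, h, Units.val_one, ZMod.val_one, pow_one]
  · intro h
    have key := modularCyclotomicCharacter.unique (L := Qb) (card_rootsOfUnity_eq_self p)
      (σ : Qb ≃+* Qb) (c := (1 : ZMod p)) (by
        intro t ht
        rw [ZMod.val_one, pow_one]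
        have ht' : (t : Qb) ^ p = 1 := by
          have := (mem_rootsOfUnity p t).mp ht
          rw [← Units.val_pow_eq_pow_val, this, Units.val_one]
        obtain ⟨i, -, hi⟩ := (zeta_spec p).eq_pow_of_pow_eq_one ht'
        show σ (t : Qb) = t
        rw [← hi, map_pow, h])
    apply Units.ext
    rw [Units.val_one]
    exact key.symm

/-- The cyclotomic field `ℚ(ζ_p)` inside `Q̄`. -/
noncomputable def K0 : IntermediateField ℚ Qb := IntermediateField.adjoin ℚ {zeta p}

theorem zeta_mem_K0 : zeta p ∈ K0 p :=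
  IntermediateField.subset_adjoin ℚ _ (Set.mem_singleton _)

instance isAlgebraic_Qb : Algebra.IsAlgebraic ℚ Qb := AlgebraicClosure.isAlgebraic ℚ

instance isIntegral_Qb : Algebra.IsIntegral ℚ Qb := Algebra.IsAlgebraic.isIntegral

instance isAlgClosure_Qb : IsAlgClosure ℚ Qb := ⟨inferInstance, inferInstance⟩

instance normal_Qb : Normal ℚ Qb := IsAlgClosure.normal ℚ Qb

instance isGalois_Qb : IsGalois ℚ Qb := ⟨⟩

instance isCyclotomicExtension_K0 : IsCyclotomicExtension {p} ℚ (K0 p) := by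
  have : NeZero p := ⟨(Fact.out : p.Prime).ne_zero⟩
  exact IsPrimitiveRoot.intermediateField_adjoin_isCyclotomicExtension ℚ (zeta_spec p)

instance finiteDimensional_K0 : FiniteDimensional ℚ (K0 p) :=
  IntermediateField.adjoin.finiteDimensional (Algebra.IsIntegral.isIntegral _)

instance numberField_K0 : NumberField (K0 p) where
  to_charZero := inferInstance
  to_finiteDimensional := inferInstance

theorem fixingSubgroup_K0 : (K0 p).fixingSubgroup = (cycloChar p).ker := by
  ext σ
  rw [MonoidHom.mem_ker, cycloChar_eq_one_iff, IntermediateField.mem_fixingSubgroup_iff]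
  constructor
  · intro h
    exact h _ (zeta_mem_K0 p)
  · intro h x hx
    have hx' : x ∈ IntermediateField.fixedField (Subgroup.zpowers σ) := by
      have hle : K0 p ≤ IntermediateField.fixedField (Subgroup.zpowers σ) := by
        rw [K0, IntermediateField.adjoin_le_iff]
        intro y hy
        rw [Set.mem_singleton_iff] at hy
        subst hy
        rw [SetLike.mem_coe, IntermediateField.mem_fixedField_iff]
        intro f hf
        obtain ⟨n, rfl⟩ := Subgroup.mem_zpowers_iff.mp hf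
        have h1 : ∀ m : ℕ, (σ ^ m) (zeta p) = zeta p := by
          intro m
          induction m with
          | zero => simp
          | succ k ih => rw [pow_succ, AlgEquiv.mul_apply, h, ih]
        rcases Int.eq_nat_or_neg n with ⟨m, rfl | rfl⟩
        · rw [zpow_natCast]; exact h1 m
        · rw [zpow_neg, zpow_natCast]
          have := h1 m
          rw [AlgEquiv.aut_inv, AlgEquiv.symm_apply_eq]
          exact this.symm
      exact hle hx
    rw [IntermediateField.mem_fixedField_iff] at hx'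
    exact hx' σ (Subgroup.mem_zpowers σ)

instance isGalois_K0 : IsGalois ℚ (K0 p) := by
  have : NeZero p := ⟨(Fact.out : p.Prime).ne_zero⟩
  exact IsCyclotomicExtension.isGalois {p} ℚ (K0 p)

/-- Dictionary between the Prelude's `cycloGalEquiv` and `cycloChar`. -/
theorem cycloGalEquiv_restrictNormal (g : GQ) :
    JacobiSumStickelberger.cycloGalEquiv p (K0 p) (g.restrictNormal (K0 p)) = cycloChar p g := by
  have hne : NeZero p := ⟨(Fact.out : p.Prime).ne_zero⟩
  set μ : K0 p := IsCyclotomicExtension.zeta p ℚ (K0 p) with hμdef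
  have hμ : IsPrimitiveRoot μ p := IsCyclotomicExtension.zeta_spec p ℚ (K0 p)
  have hμ' : IsPrimitiveRoot ((μ : K0 p) : Qb) p :=
    hμ.map_of_injective (f := algebraMap (K0 p) Qb) (algebraMap (K0 p) Qb).injective
  set a : (ZMod p)ˣ := JacobiSumStickelberger.cycloGalEquiv p (K0 p) (g.restrictNormal (K0 p))
    with ha
  have h1 : μ ^ ((a : ZMod p)).val = (g.restrictNormal (K0 p)) μ := by
    have := IsPrimitiveRoot.autToPow_spec ℚ hμ (g.restrictNormal (K0 p))
    rw [← this]
    rfl
  have h2 : ((μ : K0 p) : Qb) ^ ((a : ZMod p)).val = g (μ : Qb) := by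
    have h3 := congrArg (algebraMap (K0 p) Qb) h1
    rw [map_pow, AlgEquiv.restrictNormal_commutes] at h3
    exact h3
  rw [cycloChar_spec p g hμ'.pow_eq_one] at h2
  have h4 := hμ'.pow_inj (ZMod.val_lt _) (ZMod.val_lt _) h2
  exact Units.ext (ZMod.val_injective p h4)

theorem cycloChar_surjective : Function.Surjective (cycloChar p) := by
  intro d
  set τ : K0 p ≃ₐ[ℚ] K0 p := (JacobiSumStickelberger.cycloGalEquiv p (K0 p)).symm d with hτ
  refine ⟨τ.liftNormal Qb, ?_⟩
  rw [← cycloGalEquiv_restrictNormal]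
  have : (τ.liftNormal Qb).restrictNormal (K0 p) = τ := by
    ext x
    have h1 := AlgEquiv.restrictNormal_commutes (τ.liftNormal Qb) (K0 p) x
    rw [AlgEquiv.liftNormal_commutes] at h1
    exact congrArg Subtype.val ((algebraMap (K0 p) Qb).injective h1)
  rw [this, hτ, MulEquiv.apply_symm_apply]

/-- The fixed field of `N`. -/
noncomputable def L0 (N : Subgroup GQ) : IntermediateField ℚ Qb := IntermediateField.fixedField N

section Top

variable (N : Subgroup GQ)

theorem fixingSubgroup_L0 (hopen : IsOpen (N : Set GQ)) : (L0 N).fixingSubgroup = N :=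
  InfiniteGalois.fixingSubgroup_fixedField ⟨N, Subgroup.isClosed_of_isOpen N hopen⟩

theorem finiteDimensional_L0 (hopen : IsOpen (N : Set GQ)) : FiniteDimensional ℚ (L0 N) := by
  refine (InfiniteGalois.isOpen_iff_finite (L0 N)).mp ?_
  have h := fixingSubgroup_L0 N hopen
  show IsOpen ((L0 N).fixingSubgroup : Set GQ)
  rw [h]
  exact hopen

theorem isGalois_L0 [N.Normal] (hopen : IsOpen (N : Set GQ)) : IsGalois ℚ (L0 N) := by
  refine (InfiniteGalois.normal_iff_isGalois (L0 N)).mp ?_
  rw [fixingSubgroup_L0 N hopen]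
  infer_instance

theorem K0_le_L0 (hle : N ≤ (cycloChar p).ker) : K0 p ≤ L0 N := by
  rw [← InfiniteGalois.fixedField_fixingSubgroup (K0 p), fixingSubgroup_K0]
  exact IntermediateField.fixedField_antitone hle

variable [hKL : Fact (K0 p ≤ L0 N)]

noncomputable instance algebraKL : Algebra (K0 p) (L0 N) :=
  (IntermediateField.inclusion hKL.out).toRingHom.toAlgebra

theorem algebraMap_KL_coe (x : K0 p) : ((algebraMap (K0 p) (L0 N) x : L0 N) : Qb) = (x : Qb) := rfl

instance isScalarTower_QKL : IsScalarTower ℚ (K0 p) (L0 N) :=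
  IsScalarTower.of_algebraMap_eq fun _ => rfl

instance isScalarTower_KLQb : IsScalarTower (K0 p) (L0 N) Qb :=
  IsScalarTower.of_algebraMap_eq fun _ => rfl

instance numberField_L0 [FiniteDimensional ℚ (L0 N)] : NumberField (L0 N) where
  to_charZero := inferInstance
  to_finiteDimensional := inferInstance

instance isGalois_KL [IsGalois ℚ (L0 N)] : IsGalois (K0 p) (L0 N) :=
  IsGalois.tower_top_of_isGalois ℚ (K0 p) (L0 N)

theorem finrank_KL [FiniteDimensional ℚ (L0 N)] (hopen : IsOpen (N : Set GQ))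
    (hle : N ≤ (cycloChar p).ker) (hidx : N.relIndex (cycloChar p).ker = p) :
    Module.finrank (K0 p) (L0 N) = p := by
  have h1 := Module.finrank_mul_finrank ℚ (K0 p) (L0 N)
  have h2 : Module.finrank ℚ (L0 N) = N.index := by
    rw [IntermediateField.finrank_eq_fixingSubgroup_index, fixingSubgroup_L0 N hopen]
  have h3 : Module.finrank ℚ (K0 p) = (cycloChar p).ker.index := by
    rw [IntermediateField.finrank_eq_fixingSubgroup_index, fixingSubgroup_K0]
  have h4 := Subgroup.relIndex_mul_index hle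
  have hpos : 0 < Module.finrank ℚ (K0 p) := Module.finrank_pos
  rw [h2, h3] at h1
  rw [hidx, ← h1, mul_comm] at h4
  rw [h3] at hpos
  exact (Nat.eq_of_mul_eq_mul_left hpos h4).symm

theorem mem_N_iff (hopen : IsOpen (N : Set GQ)) (σ : GQ) :
    σ ∈ N ↔ ∀ x : L0 N, σ (x : Qb) = x := by
  have h : σ ∈ (L0 N).fixingSubgroup ↔ σ ∈ N := by rw [fixingSubgroup_L0 N hopen]
  rw [← h, IntermediateField.mem_fixingSubgroup_iff]
  exact ⟨fun h x => h x x.2, fun h x hx => h ⟨x, hx⟩⟩

theorem mem_ker_iff (σ : GQ) : σ ∈ (cycloChar p).ker ↔ ∀ x : K0 p, σ (x : Qb) = x := by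
  rw [← fixingSubgroup_K0, IntermediateField.mem_fixingSubgroup_iff]
  exact ⟨fun h x => h x x.2, fun h x hx => h ⟨x, hx⟩⟩

theorem unram_KL [FiniteDimensional ℚ (L0 N)] [IsGalois ℚ (L0 N)]
    (hopen : IsOpen (N : Set GQ))
    (hin : ∀ ℓ : ℕ, ℓ.Prime → ∀ A : ValuationSubring Qb, A.LiesOverPrime ℓ →
      A.inertiaSubgroupIn ℚ ⊓ (cycloChar p).ker ≤ N)
    (Q : Ideal (𝓞 (L0 N))) (hQ : Q.IsPrime) (hQ0 : Q ≠ ⊥) :
    Q.inertia ((L0 N) ≃ₐ[K0 p] (L0 N)) = ⊥ := by
  rw [Subgroup.eq_bot_iff_forall]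
  intro τ hτ
  obtain ⟨ℓ, A, σ, hℓ, hA, hσ, hστ⟩ :=
    FieldUnram.exists_inertia_restrict (L0 N) Q hQ hQ0 (τ.restrictScalars ℚ) (fun x => hτ x)
  have hσK : σ ∈ (cycloChar p).ker := by
    rw [mem_ker_iff]
    intro x
    have h1 := hστ (algebraMap (K0 p) (L0 N) x)
    rw [AlgEquiv.restrictScalars_apply, τ.commutes] at h1
    exact h1
  have hσN : σ ∈ N := hin ℓ hℓ A hA ⟨hσ, hσK⟩
  rw [mem_N_iff N hopen] at hσN
  ext x
  have h1 := hστ x
  rw [hσN x] at h1
  exact congrArg Subtype.val (Subtype.ext h1.symm : (τ.restrictScalars ℚ) x = x)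

theorem lift_KL [FiniteDimensional ℚ (L0 N)] [IsGalois ℚ (L0 N)] (hopen : IsOpen (N : Set GQ))
    (hconj : ∀ σ τ : GQ, τ ∈ (cycloChar p).ker →
      σ * τ * σ⁻¹ * (τ ^ (((cycloChar p σ)⁻¹ : (ZMod p)ˣ) : ZMod p).val)⁻¹ ∈ N)
    (d : (ZMod p)ˣ) :
    ∃ s : (L0 N) ≃+* (L0 N),
      (∀ x : K0 p, s (algebraMap (K0 p) (L0 N) x) =
        algebraMap (K0 p) (L0 N) ((JacobiSumStickelberger.cycloGalEquiv p (K0 p)).symm d x)) ∧
      ∀ (τ : (L0 N) ≃ₐ[K0 p] (L0 N)) (x : L0 N),
        s (τ (s.symm x)) = (τ ^ (((d⁻¹ : (ZMod p)ˣ) : ZMod p)).val) x := by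
  obtain ⟨g, rfl⟩ := cycloChar_surjective p d
  have hgL : ∀ y : L0 N, ((g.restrictNormal (L0 N) y : L0 N) : Qb) = g (y : Qb) :=
    fun y => AlgEquiv.restrictNormal_commutes g (L0 N) y
  have hgLsymm : ∀ y : L0 N, (((g.restrictNormal (L0 N)).symm y : L0 N) : Qb) = g⁻¹ (y : Qb) := by
    intro y
    rw [AlgEquiv.aut_inv, AlgEquiv.eq_symm_apply, ← hgL, AlgEquiv.apply_symm_apply]
  refine ⟨(g.restrictNormal (L0 N)).toRingEquiv, ?_, ?_⟩
  · intro x
    apply Subtype.ext
    have h1 : (JacobiSumStickelberger.cycloGalEquiv p (K0 p)).symm (cycloChar p g) =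
        g.restrictNormal (K0 p) := by
      rw [MulEquiv.symm_apply_eq, cycloGalEquiv_restrictNormal]
    rw [h1]
    have h3 : ((g.restrictNormal (K0 p) x : K0 p) : Qb) = g (x : Qb) :=
      AlgEquiv.restrictNormal_commutes g (K0 p) x
    show ((g.restrictNormal (L0 N) (algebraMap (K0 p) (L0 N) x) : L0 N) : Qb) = _
    rw [hgL, algebraMap_KL_coe, algebraMap_KL_coe, h3]
  · intro τ x
    set τ' : GQ := (τ.restrictScalars ℚ).liftNormal Qb with hτ'
    have hτ'L : ∀ y : L0 N, τ' (y : Qb) = (τ y : Qb) :=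
      fun y => AlgEquiv.liftNormal_commutes (τ.restrictScalars ℚ) Qb y
    have hτ'K : τ' ∈ (cycloChar p).ker := by
      rw [mem_ker_iff]
      intro y
      have h1 := hτ'L (algebraMap (K0 p) (L0 N) y)
      rw [τ.commutes] at h1
      exact h1
    have hpow : ∀ (n : ℕ) (y : L0 N), (τ' ^ n) (y : Qb) = ((τ ^ n) y : Qb) := by
      intro n
      induction n with
      | zero => intro y; simp
      | succ k ih =>
        intro y
        rw [pow_succ, pow_succ, AlgEquiv.mul_apply, AlgEquiv.mul_apply, hτ'L, ih]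
    have hmem := hconj g τ' hτ'K
    rw [mem_N_iff N hopen] at hmem
    set k : ℕ := (((cycloChar p g)⁻¹ : (ZMod p)ˣ) : ZMod p).val with hk
    apply Subtype.ext
    show ((g.restrictNormal (L0 N) (τ ((g.restrictNormal (L0 N)).symm x)) : L0 N) : Qb) = _
    rw [hgL, ← hτ'L, hgLsymm]
    have h2 := hmem ((τ ^ k) x)
    rw [← hpow] at h2
    simp only [AlgEquiv.mul_apply] at h2
    rw [AlgEquiv.aut_inv (τ' ^ k), AlgEquiv.symm_apply_apply] at h2
    rw [h2, hpow]

theorem split_KL [FiniteDimensional ℚ (L0 N)] [IsGalois ℚ (L0 N)]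
    (hopen : IsOpen (N : Set GQ))
    (hsplit : ∀ A : ValuationSubring Qb, A.LiesOverPrime p →
      A.decompositionSubgroup ℚ ⊓ (cycloChar p).ker ≤ N)
    (Q : Ideal (𝓞 (L0 N))) (hQ : Q.IsPrime) (hpQ : (p : 𝓞 (L0 N)) ∈ Q)
    (τ : (L0 N) ≃ₐ[K0 p] (L0 N)) (hτ : τ • Q = Q) : τ = 1 := by
  obtain ⟨A, σ, hA, -, hσ, hστ⟩ :=
    FieldUnram.exists_decomposition_restrict_of_forall_mem (L0 N) Q hQ p hpQ
      (τ.restrictScalars ℚ) (fun x hx => by
        have h1 : τ • x ∈ τ • Q := Ideal.smul_mem_pointwise_smul τ x Q hx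
        rw [hτ] at h1
        exact h1)
  have hσK : σ ∈ (cycloChar p).ker := by
    rw [mem_ker_iff]
    intro x
    have h1 := hστ (algebraMap (K0 p) (L0 N) x)
    rw [AlgEquiv.restrictScalars_apply, τ.commutes] at h1
    exact h1
  have hσN : σ ∈ N := hsplit A hA ⟨hσ, hσK⟩
  rw [mem_N_iff N hopen] at hσN
  ext x
  have h1 := hστ x
  rw [hσN x] at h1
  exact congrArg Subtype.val (Subtype.ext h1.symm : (τ.restrictScalars ℚ) x = x)

end Top

/-- **[Field]**: a kernel datum is realised by number fields. -/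
theorem fieldStmt : Plan.FieldStmt p := by
  intro _ N hN
  obtain ⟨hnorm, hopen, hle, hidx, hconj, hin⟩ := hN
  have : Fact (K0 p ≤ L0 N) := ⟨K0_le_L0 p N hle⟩
  have := finiteDimensional_L0 N hopen
  have := isGalois_L0 N hopen
  exact ⟨{ K := K0 p
           L := L0 N
           finrank_eq := finrank_KL p N hopen hle hidx
           unram := unram_KL p N hopen hin
           lift := lift_KL p N hopen hconj }⟩

/-- **[Field], with splitting at `p`**. -/
theorem fieldSplitStmt : Plan.FieldSplitStmt p := by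
  intro _ N hN
  obtain ⟨⟨hnorm, hopen, hle, hidx, hconj, hin⟩, hsplit⟩ := hN
  have : Fact (K0 p ≤ L0 N) := ⟨K0_le_L0 p N hle⟩
  have := finiteDimensional_L0 N hopen
  have := isGalois_L0 N hopen
  exact ⟨{ K := K0 p
           L := L0 N
           finrank_eq := finrank_KL p N hopen hle hidx
           unram := unram_KL p N hopen hin
           lift := lift_KL p N hopen hconj }, split_KL p N hopen hsplit⟩

end Fermat.Agent.S14.Field
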