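import Mathlib
import Fermat.Prelude.Def_ExtCitation_AdmissibleExtension_v2
import Fermat.Prelude.Def_ExtCitation_KummerBridge

/-!
# S14, early exit, step (a): the field cut out by a non-split admissible extension

`G = Gal(Q̄/ℚ)`, `χ = cycloChar p`.  From an admissible extension `0 → C → V → μ_p → 0` which does
not split globally we extract the open normal subgroup `N = ker (G → Aut V)`, and show
`N ≤ ker χ` with index `p`, `G` acts on `ker χ / N` through `χ⁻¹`, `N` contains every inertia group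
at `ℓ ≠ p` and `D_A ∩ ker χ` for every place `A` over `p`.
No cohomology is used.
-/

set_option autoImplicit false

open ExtCitation

namespace Fermat.Agent.S14.FieldBridge

variable (p : ℕ) [Fact p.Prime]
variable (V : Type) [AddCommGroup V] [Module (ZMod p) V]
  [DistribMulAction (AlgebraicClosure ℚ ≃ₐ[ℚ] AlgebraicClosure ℚ) V]
  [SMulCommClass (AlgebraicClosure ℚ ≃ₐ[ℚ] AlgebraicClosure ℚ) (ZMod p) V]

/-- The kernel of the Galois action on `V`. -/
def actKer : Subgroup (AlgebraicClosure ℚ ≃ₐ[ℚ] AlgebraicClosure ℚ) where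
  carrier := {σ | ∀ v : V, σ • v = v}
  mul_mem' := fun {a b} ha hb v => by rw [mul_smul, hb v, ha v]
  one_mem' := fun v => one_smul _ v
  inv_mem' := fun {a} ha v => by rw [inv_smul_eq_iff, ha v]

variable {V}

lemma mem_actKer {σ : AlgebraicClosure ℚ ≃ₐ[ℚ] AlgebraicClosure ℚ} :
    σ ∈ actKer V ↔ ∀ v : V, σ • v = v := Iff.rfl

instance actKer_normal : (actKer V).Normal where
  conj_mem := fun n hn g v => by
    rw [mul_smul, mul_smul, hn (g⁻¹ • v), smul_inv_smul]

variable {p}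
variable {C : Submodule (ZMod p) V}

lemma cyclo_quot' (hadm : IsAdmissibleExtension p V C)
    (σ : AlgebraicClosure ℚ ≃ₐ[ℚ] AlgebraicClosure ℚ) (x : V) :
    σ • x - ((cycloChar p σ : (ZMod p)ˣ) : ZMod p) • x ∈ C := by
  rw [coe_cycloChar]
  exact hadm.cyclo_quot σ x

lemma exists_not_mem (hadm : IsAdmissibleExtension p V C) : ∃ v₀ : V, v₀ ∉ C := by
  by_contra hcon
  push Not at hcon
  have htop : C = ⊤ := eq_top_iff.mpr fun x _ => hcon x
  have h1 : Nat.card C = Nat.card V := by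
    rw [htop]
    exact Nat.card_congr (Equiv.Set.univ V)
  rw [hadm.card_sub, hadm.card_total] at h1
  have hp : p.Prime := Fact.out
  have : 1 < p := hp.one_lt
  nlinarith

lemma actKer_le_ker (hadm : IsAdmissibleExtension p V C) : actKer V ≤ (cycloChar p).ker := by
  intro s hs
  obtain ⟨v₀, hv₀⟩ := exists_not_mem hadm
  rw [MonoidHom.mem_ker]
  by_contra hne
  have h1 := cyclo_quot' hadm s v₀
  rw [hs v₀] at h1
  have h2 : (1 - ((cycloChar p s : (ZMod p)ˣ) : ZMod p)) • v₀ ∈ C := by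
    rw [sub_smul, one_smul]; exact h1
  have h3 : (1 - ((cycloChar p s : (ZMod p)ˣ) : ZMod p)) ≠ 0 := by
    intro h0
    apply hne
    ext
    rw [Units.val_one]
    exact (sub_eq_zero.mp h0).symm
  have h4 := C.smul_mem (1 - ((cycloChar p s : (ZMod p)ˣ) : ZMod p))⁻¹ h2
  rw [smul_smul, inv_mul_cancel₀ h3, one_smul] at h4
  exact hv₀ h4

/-- If `ker χ` acts trivially then the extension splits (Maschke, in eigenvector form). -/
lemma splits_of_ker_le (hadm : IsAdmissibleExtension p V C)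
    (h : (cycloChar p).ker ≤ actKer V) : SplitsGlobally C := by
  by_cases htriv : ∀ g : AlgebraicClosure ℚ ≃ₐ[ℚ] AlgebraicClosure ℚ, cycloChar p g = 1
  · obtain ⟨C', hC'⟩ := Submodule.exists_isCompl C
    refine ⟨C', fun σ x hx => ?_, hC'⟩
    have : σ ∈ actKer V := h (MonoidHom.mem_ker.mpr (htriv σ))
    rw [this x]; exact hx
  · push Not at htriv
    obtain ⟨g, hg⟩ := htriv
    set a : ZMod p := ((cycloChar p g : (ZMod p)ˣ) : ZMod p) with ha
    have ha1 : (1 - a) ≠ 0 := by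
      intro h0
      apply hg
      ext
      rw [Units.val_one]
      exact (sub_eq_zero.mp h0).symm
    -- the eigenspace
    let C' : Submodule (ZMod p) V :=
      { carrier := {v | g • v = a • v}
        add_mem' := fun {x y} hx hy => by
          show g • (x + y) = a • (x + y)
          rw [smul_add, smul_add, hx, hy]
        zero_mem' := by
          show g • (0 : V) = a • (0 : V)
          rw [smul_zero, smul_zero]
        smul_mem' := fun c x hx => by
          show g • (c • x) = a • (c • x)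
          rw [smul_comm g c x, hx, smul_comm] }
    have hmemC' : ∀ v : V, v ∈ C' ↔ g • v = a • v := fun v => Iff.rfl
    refine ⟨C', fun σ x hx => ?_, ?_⟩
    · rw [hmemC'] at hx ⊢
      -- g σ x = σ (σ⁻¹ g σ) x, and σ⁻¹ g σ = g * (g⁻¹ σ⁻¹ g σ) with the latter in ker χ
      have hk : g⁻¹ * (σ⁻¹ * g * σ) ∈ actKer V := by
        apply h
        rw [MonoidHom.mem_ker]
        simp only [map_mul, map_inv]
        rw [mul_comm ((cycloChar p σ)⁻¹) (cycloChar p g), mul_assoc, inv_mul_cancel, mul_one,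
          inv_mul_cancel]
      have h1 : g • σ • x = σ • (g • ((g⁻¹ * (σ⁻¹ * g * σ)) • x)) := by
        rw [← mul_smul, ← mul_smul, ← mul_smul]
        congr 1
        group
      rw [h1, hk x, hx, smul_comm]
    · refine ⟨?_, ?_⟩
      · rw [Submodule.disjoint_def]
        intro v hvC hvC'
        rw [hmemC', hadm.fixed_sub g v hvC] at hvC'
        have h2 : (1 - a) • v = 0 := by
          rw [sub_smul, one_smul, ← hvC', sub_self]
        rcases smul_eq_zero.mp h2 with h3 | h3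
        · exact absurd h3 ha1
        · exact h3
      · rw [codisjoint_iff, eq_top_iff]
        intro v _
        obtain ⟨w, hwdef⟩ : ∃ w : V, w = g • v - a • v := ⟨_, rfl⟩
        have hw : w ∈ C := hwdef ▸ cyclo_quot' hadm g v
        have hgw : g • w = w := hadm.fixed_sub g w hw
        have hv' : v - (1 - a)⁻¹ • w ∈ C' := by
          rw [hmemC', smul_sub, smul_sub, smul_comm g _ w, hgw]
          have e1 : g • v = w + a • v := by rw [hwdef]; abel
          rw [e1]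
          have e2 : (1 - a) • ((1 - a)⁻¹ • w) = w := by
            rw [smul_smul, mul_inv_cancel₀ ha1, one_smul]
          rw [sub_smul, one_smul] at e2
          generalize (1 - a)⁻¹ • w = X at e2 ⊢
          rw [← e2]
          abel
        have : v = (1 - a)⁻¹ • w + (v - (1 - a)⁻¹ • w) := by abel
        rw [this]
        exact Submodule.add_mem_sup (C.smul_mem _ hw) hv'

lemma finite_of_adm (hadm : IsAdmissibleExtension p V C) : Finite V := by
  apply Nat.finite_of_card_ne_zero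
  rw [hadm.card_total]
  exact pow_ne_zero _ (Fact.out : p.Prime).ne_zero

lemma finrank_total (hadm : IsAdmissibleExtension p V C) : Module.finrank (ZMod p) V = 2 := by
  have := finite_of_adm hadm
  have h := Module.natCard_eq_pow_finrank (K := ZMod p) (V := V)
  rw [hadm.card_total, Nat.card_zmod] at h
  exact (Nat.pow_right_injective (Fact.out : p.Prime).two_le h).symm

lemma finrank_sub (hadm : IsAdmissibleExtension p V C) : Module.finrank (ZMod p) C = 1 := by
  have := finite_of_adm hadm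
  have h := Module.natCard_eq_pow_finrank (K := ZMod p) (V := C)
  rw [hadm.card_sub, Nat.card_zmod] at h
  have h' : p ^ 1 = p ^ Module.finrank (ZMod p) C := by rw [pow_one]; exact h
  exact (Nat.pow_right_injective (Fact.out : p.Prime).two_le h').symm

/-- A submodule strictly containing `C` is everything. -/
lemma eq_top_of_lt (hadm : IsAdmissibleExtension p V C) {F : Submodule (ZMod p) V} (h : C < F) :
    F = ⊤ := by
  have := finite_of_adm hadm
  have h1 := Submodule.finrank_lt_finrank_of_lt h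
  rw [finrank_sub hadm] at h1
  apply Submodule.eq_top_of_finrank_eq
  have h2 := Submodule.finrank_le F
  rw [finrank_total hadm] at h2 ⊢
  omega

/-- The fixed submodule of one element. -/
def fixSub (τ : AlgebraicClosure ℚ ≃ₐ[ℚ] AlgebraicClosure ℚ) : Submodule (ZMod p) V where
  carrier := {v | τ • v = v}
  add_mem' := fun {x y} hx hy => by
    show τ • (x + y) = x + y
    rw [smul_add, hx, hy]
  zero_mem' := smul_zero τ
  smul_mem' := fun c x hx => by
    show τ • (c • x) = c • x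
    rw [smul_comm τ c x, hx]

/-- An element fixing `C` pointwise and one vector outside `C` acts trivially. -/
lemma mem_actKer_of_fix (hadm : IsAdmissibleExtension p V C)
    {τ : AlgebraicClosure ℚ ≃ₐ[ℚ] AlgebraicClosure ℚ} {v₀ : V} (hv₀ : v₀ ∉ C)
    (h : τ • v₀ = v₀) : τ ∈ actKer V := by
  have hlt : C < fixSub (p := p) (V := V) τ := by
    refine lt_of_le_of_ne (fun x hx => hadm.fixed_sub τ x hx) ?_
    intro heq
    apply hv₀
    rw [heq]
    exact h
  have htop := eq_top_of_lt hadm hlt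
  intro v
  have : v ∈ fixSub (p := p) (V := V) τ := by rw [htop]; trivial
  exact this

lemma smul_sub_mem (hadm : IsAdmissibleExtension p V C)
    {τ : AlgebraicClosure ℚ ≃ₐ[ℚ] AlgebraicClosure ℚ} (hτ : τ ∈ (cycloChar p).ker) (v : V) :
    τ • v - v ∈ C := by
  have h := cyclo_quot' hadm τ v
  rw [MonoidHom.mem_ker.mp hτ, Units.val_one, one_smul] at h
  exact h

/-- The homomorphism `ker χ → C`, `τ ↦ τ v₀ - v₀`. -/
noncomputable def lam (hadm : IsAdmissibleExtension p V C) (v₀ : V) :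
    ↥(cycloChar p).ker →* Multiplicative ↥C where
  toFun τ := Multiplicative.ofAdd ⟨(τ : AlgebraicClosure ℚ ≃ₐ[ℚ] AlgebraicClosure ℚ) • v₀ - v₀,
    smul_sub_mem hadm τ.2 v₀⟩
  map_one' := by
    rw [← ofAdd_zero]
    congr 1
    apply Subtype.ext
    show ((1 : ↥(cycloChar p).ker) : AlgebraicClosure ℚ ≃ₐ[ℚ] AlgebraicClosure ℚ) • v₀ - v₀ = 0
    rw [Subgroup.coe_one, one_smul, sub_self]
  map_mul' τ τ' := by
    rw [← ofAdd_add]
    congr 1
    apply Subtype.ext
    show ((τ * τ' : ↥(cycloChar p).ker) : AlgebraicClosure ℚ ≃ₐ[ℚ] AlgebraicClosure ℚ) • v₀ - v₀ =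
      ((τ : AlgebraicClosure ℚ ≃ₐ[ℚ] AlgebraicClosure ℚ) • v₀ - v₀) +
      ((τ' : AlgebraicClosure ℚ ≃ₐ[ℚ] AlgebraicClosure ℚ) • v₀ - v₀)
    have h1 := hadm.fixed_sub (τ : AlgebraicClosure ℚ ≃ₐ[ℚ] AlgebraicClosure ℚ) _
      (smul_sub_mem hadm τ'.2 v₀)
    rw [smul_sub] at h1
    rw [Subgroup.coe_mul, mul_smul]
    have h2 : (τ : AlgebraicClosure ℚ ≃ₐ[ℚ] AlgebraicClosure ℚ) •
        (τ' : AlgebraicClosure ℚ ≃ₐ[ℚ] AlgebraicClosure ℚ) • v₀ =
        ((τ' : AlgebraicClosure ℚ ≃ₐ[ℚ] AlgebraicClosure ℚ) • v₀ - v₀) +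
        (τ : AlgebraicClosure ℚ ≃ₐ[ℚ] AlgebraicClosure ℚ) • v₀ := by
      rw [← h1]; abel
    rw [h2]; abel

lemma lam_apply_coe (hadm : IsAdmissibleExtension p V C) (v₀ : V) (τ : ↥(cycloChar p).ker) :
    ((Multiplicative.toAdd (lam hadm v₀ τ) : ↥C) : V) =
      (τ : AlgebraicClosure ℚ ≃ₐ[ℚ] AlgebraicClosure ℚ) • v₀ - v₀ := rfl

lemma lam_eq_one_iff (hadm : IsAdmissibleExtension p V C) {v₀ : V} (hv₀ : v₀ ∉ C)
    (τ : ↥(cycloChar p).ker) :
    lam hadm v₀ τ = 1 ↔ (τ : AlgebraicClosure ℚ ≃ₐ[ℚ] AlgebraicClosure ℚ) ∈ actKer V := by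
  constructor
  · intro h
    apply mem_actKer_of_fix hadm hv₀
    have h1 : ((Multiplicative.toAdd (lam hadm v₀ τ) : ↥C) : V) = 0 := by
      rw [h]; rfl
    rw [lam_apply_coe] at h1
    exact sub_eq_zero.mp h1
  · intro h
    rw [← ofAdd_zero]
    show Multiplicative.ofAdd _ = _
    congr 1
    apply Subtype.ext
    show (τ : AlgebraicClosure ℚ ≃ₐ[ℚ] AlgebraicClosure ℚ) • v₀ - v₀ = 0
    rw [h v₀, sub_self]

lemma lam_ker (hadm : IsAdmissibleExtension p V C) {v₀ : V} (hv₀ : v₀ ∉ C) :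
    (lam hadm v₀).ker = (actKer V).subgroupOf (cycloChar p).ker := by
  ext τ
  rw [MonoidHom.mem_ker, lam_eq_one_iff hadm hv₀, Subgroup.mem_subgroupOf]

/-- The index of `N` in `ker χ` is `p` for a non-split extension. -/
lemma relIndex_actKer (hadm : IsAdmissibleExtension p V C) (hns : ¬ SplitsGlobally C) :
    (actKer V).relIndex (cycloChar p).ker = p := by
  obtain ⟨v₀, hv₀⟩ := exists_not_mem hadm
  have hp : p.Prime := Fact.out
  rw [Subgroup.relIndex, ← lam_ker hadm hv₀, Subgroup.index_ker]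
  have hdvd : Nat.card (lam hadm v₀).range ∣ Nat.card (Multiplicative ↥C) :=
    Subgroup.card_subgroup_dvd_card _
  have hcard : Nat.card (Multiplicative ↥C) = p := by
    rw [Nat.card_congr Multiplicative.toAdd]
    exact hadm.card_sub
  rw [hcard] at hdvd
  rcases (Nat.dvd_prime hp).mp hdvd with h1 | h1
  · exfalso
    apply hns
    apply splits_of_ker_le hadm
    intro τ hτ
    have h2 : (lam hadm v₀).range = ⊥ := Subgroup.card_eq_one.mp h1
    have h3 : lam hadm v₀ ⟨τ, hτ⟩ ∈ (lam hadm v₀).range := ⟨_, rfl⟩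
    rw [h2, Subgroup.mem_bot] at h3
    exact (lam_eq_one_iff hadm hv₀ ⟨τ, hτ⟩).mp h3
  · exact h1

/-- Conjugation by `σ` acts on `ker χ / N` by `χ(σ)⁻¹`. -/
lemma conj_mul_pow_mem (hadm : IsAdmissibleExtension p V C)
    (σ : AlgebraicClosure ℚ ≃ₐ[ℚ] AlgebraicClosure ℚ)
    {τ : AlgebraicClosure ℚ ≃ₐ[ℚ] AlgebraicClosure ℚ} (hτ : τ ∈ (cycloChar p).ker) :
    σ * τ * σ⁻¹ * (τ ^ (((cycloChar p σ)⁻¹ : (ZMod p)ˣ) : ZMod p).val)⁻¹ ∈ actKer V := by
  obtain ⟨v₀, hv₀⟩ := exists_not_mem hadm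
  have : NeZero p := ⟨(Fact.out : p.Prime).ne_zero⟩
  set k : ℕ := (((cycloChar p σ)⁻¹ : (ZMod p)ˣ) : ZMod p).val with hk
  have hconj : σ * τ * σ⁻¹ ∈ (cycloChar p).ker :=
    (inferInstance : ((cycloChar p).ker).Normal).conj_mem τ hτ σ
  let τ' : ↥(cycloChar p).ker := ⟨τ, hτ⟩
  let c' : ↥(cycloChar p).ker := ⟨σ * τ * σ⁻¹, hconj⟩
  have hx : ((c' * (τ' ^ k)⁻¹ : ↥(cycloChar p).ker) : AlgebraicClosure ℚ ≃ₐ[ℚ] AlgebraicClosure ℚ)
      = σ * τ * σ⁻¹ * (τ ^ k)⁻¹ := rfl
  rw [← hx, ← lam_eq_one_iff hadm hv₀, map_mul, map_inv, map_pow, mul_inv_eq_one]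
  -- λ(σ τ σ⁻¹) = λ(τ)^k
  apply Multiplicative.toAdd.injective
  rw [toAdd_pow]
  apply Subtype.ext
  rw [AddSubmonoidClass.coe_nsmul, lam_apply_coe, lam_apply_coe]
  show (σ * τ * σ⁻¹) • v₀ - v₀ = k • (τ • v₀ - v₀)
  -- u := σ⁻¹ v₀ = χ(σ)⁻¹ v₀ + c
  set d : V := τ • v₀ - v₀ with hd
  have hdC : d ∈ C := smul_sub_mem hadm hτ v₀
  have hcC := cyclo_quot' hadm σ⁻¹ v₀
  obtain ⟨c, hcdef⟩ : ∃ c : V, c = σ⁻¹ • v₀ - ((cycloChar p σ⁻¹ : (ZMod p)ˣ) : ZMod p) • v₀ :=
    ⟨_, rfl⟩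
  rw [← hcdef] at hcC
  have hu : σ⁻¹ • v₀ = ((cycloChar p σ⁻¹ : (ZMod p)ˣ) : ZMod p) • v₀ + c := by rw [hcdef]; abel
  have hτv : τ • v₀ = v₀ + d := by rw [hd]; abel
  have h1 : τ • σ⁻¹ • v₀ = σ⁻¹ • v₀ + ((cycloChar p σ⁻¹ : (ZMod p)ˣ) : ZMod p) • d := by
    rw [hu, smul_add, smul_comm τ _ v₀, hτv, hadm.fixed_sub τ c hcC, smul_add]
    abel
  have h2 : (σ * τ * σ⁻¹) • v₀ = v₀ + ((cycloChar p σ⁻¹ : (ZMod p)ˣ) : ZMod p) • d := by
    rw [mul_smul, mul_smul, h1, smul_add, smul_inv_smul, smul_comm σ _ d, hadm.fixed_sub σ d hdC]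
  rw [h2, add_sub_cancel_left, map_inv, ← Nat.cast_smul_eq_nsmul (ZMod p) k d, hk,
    ZMod.natCast_zmod_val]

/-- `N` contains the inertia groups at `ℓ ≠ p`. -/
lemma inertia_le_actKer (hadm : IsAdmissibleExtension p V C) (ℓ : ℕ) (hℓ : ℓ.Prime) (hℓp : ℓ ≠ p)
    (A : ValuationSubring (AlgebraicClosure ℚ)) (hA : A.LiesOverPrime ℓ) :
    A.inertiaSubgroupIn ℚ ≤ actKer V :=
  fun σ hσ v => hadm.unramified_outside ℓ hℓ hℓp A hA σ hσ v

/-- `N` contains `D_A ∩ ker χ` for every place `A` over `p`. -/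
lemma decomposition_inf_ker_le_actKer (hadm : IsAdmissibleExtension p V C)
    (A : ValuationSubring (AlgebraicClosure ℚ)) (hA : A.LiesOverPrime p) :
    A.decompositionSubgroup ℚ ⊓ (cycloChar p).ker ≤ actKer V := by
  rintro τ ⟨hτD, hτχ⟩
  obtain ⟨C', hstab, hcompl⟩ := hadm.locally_split A hA
  have hfixC' : ∀ x ∈ C', τ • x = x := by
    intro x hx
    have h1 : τ • x - x ∈ C := smul_sub_mem hadm hτχ x
    have h2 : τ • x - x ∈ C' := C'.sub_mem (hstab τ hτD x hx) hx
    have h3 : τ • x - x ∈ C ⊓ C' := ⟨h1, h2⟩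
    rw [hcompl.inf_eq_bot, Submodule.mem_bot] at h3
    exact sub_eq_zero.mp h3
  intro v
  have hv : v ∈ C ⊔ C' := by rw [hcompl.sup_eq_top]; trivial
  obtain ⟨c, hc, c', hc', rfl⟩ := Submodule.mem_sup.mp hv
  rw [smul_add, hadm.fixed_sub τ c hc, hfixC' c' hc']

/-- **(a1), group form.** A non-split admissible extension cuts out an open normal subgroup
`N ≤ ker χ` of index `p` on which `G` acts by `χ⁻¹`, unramified outside `p` and totally split
at `p`. -/
theorem exists_subgroup_of_not_splits (hadm : IsAdmissibleExtensionCts p V C)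
    (hns : ¬ SplitsGlobally C) :
    ∃ N : Subgroup (AlgebraicClosure ℚ ≃ₐ[ℚ] AlgebraicClosure ℚ), N.Normal ∧
      IsOpen (N : Set (AlgebraicClosure ℚ ≃ₐ[ℚ] AlgebraicClosure ℚ)) ∧
      N ≤ (cycloChar p).ker ∧ N.relIndex (cycloChar p).ker = p ∧
      (∀ σ : AlgebraicClosure ℚ ≃ₐ[ℚ] AlgebraicClosure ℚ, ∀ τ ∈ (cycloChar p).ker,
        σ * τ * σ⁻¹ * (τ ^ (((cycloChar p σ)⁻¹ : (ZMod p)ˣ) : ZMod p).val)⁻¹ ∈ N) ∧
      (∀ ℓ : ℕ, ℓ.Prime → ℓ ≠ p → ∀ A : ValuationSubring (AlgebraicClosure ℚ),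
        A.LiesOverPrime ℓ → A.inertiaSubgroupIn ℚ ≤ N) ∧
      (∀ A : ValuationSubring (AlgebraicClosure ℚ), A.LiesOverPrime p →
        A.decompositionSubgroup ℚ ⊓ (cycloChar p).ker ≤ N) :=
  ⟨actKer V, inferInstance, hadm.open_kernel, actKer_le_ker hadm.toIsAdmissibleExtension,
    relIndex_actKer hadm.toIsAdmissibleExtension hns,
    fun σ _ hτ => conj_mul_pow_mem hadm.toIsAdmissibleExtension σ hτ,
    inertia_le_actKer hadm.toIsAdmissibleExtension,
    decomposition_inf_ker_le_actKer hadm.toIsAdmissibleExtension⟩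

end Fermat.Agent.S14.FieldBridge
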