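import Fermat.Agent.S14.Plan
import Fermat.Agent.S14.FieldBridge

/-!
# S14, package [Kernel]: a non-split admissible extension produces a kernel datum

`kernelStmt : Plan.KernelStmt p`, with `N = FieldBridge.actKer V` the kernel of the Galois action
on `V`.  `kernelStmt_split` records in addition that every place over `p` splits completely
(`D_A ⊓ ker χ ≤ N`), which the Plan's `IsKernelDatum` does not carry.
-/

set_option autoImplicit false

open ExtCitation

namespace Fermat.Agent.S14.Kernel

/-- The inertia group (as a subgroup of the full Galois group) lies in the decomposition group. -/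
lemma inertiaSubgroupIn_le_decomposition (A : ValuationSubring (AlgebraicClosure ℚ)) :
    A.inertiaSubgroupIn ℚ ≤ A.decompositionSubgroup ℚ := by
  rintro σ ⟨x, _, rfl⟩
  exact x.2

/-- The kernel of the action on a non-split admissible extension is a kernel datum, and every
place over `p` splits completely in the corresponding extension of `ℚ(ζ_p)`. -/
theorem isKernelDatum_actKer (p : ℕ) [Fact p.Prime] (V : Type) [AddCommGroup V]
    [Module (ZMod p) V] [DistribMulAction (AlgebraicClosure ℚ ≃ₐ[ℚ] AlgebraicClosure ℚ) V]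
    [SMulCommClass (AlgebraicClosure ℚ ≃ₐ[ℚ] AlgebraicClosure ℚ) (ZMod p) V]
    (C : Submodule (ZMod p) V) (hadm : IsAdmissibleExtensionCts p V C)
    (hns : ¬ SplitsGlobally C) :
    Plan.IsKernelDatum p (FieldBridge.actKer V) ∧
      ∀ A : ValuationSubring (AlgebraicClosure ℚ), A.LiesOverPrime p →
        A.decompositionSubgroup ℚ ⊓ (cycloChar p).ker ≤ FieldBridge.actKer V := by
  have hadm' := hadm.toIsAdmissibleExtension
  refine ⟨⟨inferInstance, hadm.open_kernel, FieldBridge.actKer_le_ker hadm',
    FieldBridge.relIndex_actKer hadm' hns,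
    fun σ τ hτ => FieldBridge.conj_mul_pow_mem hadm' σ hτ, ?_⟩,
    FieldBridge.decomposition_inf_ker_le_actKer hadm'⟩
  intro ℓ hℓ A hA
  by_cases hℓp : ℓ = p
  · subst hℓp
    exact le_trans (inf_le_inf_right _ (inertiaSubgroupIn_le_decomposition A))
      (FieldBridge.decomposition_inf_ker_le_actKer hadm' A hA)
  · exact inf_le_left.trans (FieldBridge.inertia_le_actKer hadm' ℓ hℓ hℓp A hA)

/-- **[Kernel]** -/
theorem kernelStmt (p : ℕ) [Fact p.Prime] : Plan.KernelStmt p := by
  intro _ V _ _ _ _ C hadm hns
  exact ⟨FieldBridge.actKer V, (isKernelDatum_actKer p V C hadm hns).1⟩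

/-- The kernel datum together with complete splitting at `p` (for the Kummer/Thaine bridge). -/
theorem kernelStmt_split (p : ℕ) [Fact p.Prime] (V : Type) [AddCommGroup V]
    [Module (ZMod p) V] [DistribMulAction (AlgebraicClosure ℚ ≃ₐ[ℚ] AlgebraicClosure ℚ) V]
    [SMulCommClass (AlgebraicClosure ℚ ≃ₐ[ℚ] AlgebraicClosure ℚ) (ZMod p) V]
    (C : Submodule (ZMod p) V) (hadm : IsAdmissibleExtensionCts p V C)
    (hns : ¬ SplitsGlobally C) :
    ∃ N : Subgroup (AlgebraicClosure ℚ ≃ₐ[ℚ] AlgebraicClosure ℚ), Plan.IsKernelDatum p N ∧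
      ∀ A : ValuationSubring (AlgebraicClosure ℚ), A.LiesOverPrime p →
        A.decompositionSubgroup ℚ ⊓ (cycloChar p).ker ≤ N :=
  ⟨FieldBridge.actKer V, isKernelDatum_actKer p V C hadm hns⟩

end Fermat.Agent.S14.Kernel
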