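import Fermat.Agent.S14.Plan
import Fermat.Agent.S14.Kernel

/-!
# S14: the kernel contract with splitting at `p`

`Fermat.Agent.S14.Kernel.kernelStmt_split` in the vocabulary of the plan.
-/

set_option autoImplicit false

namespace Fermat.Agent.S14.KernelSplit

open ExtCitation Fermat.Agent.S14.Plan

theorem kernelSplitStmt (p : ℕ) [Fact p.Prime] : KernelSplitStmt p :=
  fun _ V _ _ _ _ C hadm hns => Fermat.Agent.S14.Kernel.kernelStmt_split p V C hadm hns

end Fermat.Agent.S14.KernelSplit
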