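import Fermat.Agent.S14.Plan
import Fermat.Agent.Lib.KummerGen

/-!
# S14 bridge, [KG-a]: the Kummer generator of a field datum

For a field datum `D` (`L / K` Galois of degree `p` over `K = ℚ(ζ_p)`, with lifts `s` of the
elements of `Gal(K/ℚ)` conjugating `Gal(L/K)` through `ω⁻¹`), there are algebraic integers
`θ ∈ 𝓞 L`, `a ∈ 𝓞 K` with `θ ^ p = a`, `a` not a `p`-th power in `K`, and
`σ a = a ^ (b ^ 2) * γ ^ p` whenever `σ ζ = ζ ^ b` (the `ω²` eigen law).  Generic Kummer theory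
is `Lib/KummerGen.lean`; here the denominators are cleared and the exponents are identified
through `cycloGalEquiv`.
-/

set_option autoImplicit false
open scoped NumberField

namespace Fermat.Agent.S14.KummerGenAlt

open JacobiSumStickelberger

/-- `cycloGalEquiv` is the exponent on `p`-th roots of unity. -/
theorem apply_eq_pow_cycloGalEquiv (p : ℕ) [Fact p.Prime] (K : Type*) [Field K] [NumberField K]
    [IsCyclotomicExtension {p} ℚ K] (σ : K ≃ₐ[ℚ] K) {ξ : K} (hξ : ξ ^ p = 1) :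
    σ ξ = ξ ^ ((cycloGalEquiv p K σ : (ZMod p)ˣ) : ZMod p).val :=
  IsCyclotomicExtension.Rat.galEquivZMod_apply_of_pow_eq p K σ hξ

/-- [KG-a] the Kummer generator of a field datum, integral, with the `ω²` eigen law. -/
theorem exists_kummer_generator (p : ℕ) [Fact p.Prime] (D : Fermat.Agent.S14.Plan.FieldDatum p) :
    ∃ (θ : 𝓞 D.L) (a : 𝓞 D.K), a ≠ 0 ∧ θ ^ p = algebraMap (𝓞 D.K) (𝓞 D.L) a ∧
      (¬ ∃ β : D.K, (a : D.K) = β ^ p) ∧
      ∀ (σ : D.K ≃ₐ[ℚ] D.K) (b : ℕ) (ζ : D.K), IsPrimitiveRoot ζ p → σ ζ = ζ ^ b →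
        ∃ γ : D.K, σ (a : D.K) = (a : D.K) ^ (b ^ 2) * γ ^ p := by
  have hp : p.Prime := Fact.out
  have hζ0 : IsPrimitiveRoot (IsCyclotomicExtension.zeta p ℚ D.K) p :=
    IsCyclotomicExtension.zeta_spec p ℚ D.K
  obtain ⟨α, β, h⟩ := Fermat.Agent.Lib.KummerGen.exists_kummer hp D.finrank_eq hζ0
  have hα0 : α ≠ 0 := h.alpha_ne_zero
  -- clear denominators
  have halg : IsAlgebraic ℤ β := by
    have : IsAlgebraic ℚ β := Algebra.IsAlgebraic.isAlgebraic β
    exact (IsFractionRing.isAlgebraic_iff ℤ ℚ D.L).mpr this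
  obtain ⟨n, hn0, hnint⟩ := halg.exists_integral_multiple
  have hnK : (n : D.K) ≠ 0 := by exact_mod_cast hn0
  have hnL : (n : D.L) ≠ 0 := by exact_mod_cast hn0
  have hnβ : n • β = (n : D.L) * β := by simp [zsmul_eq_mul]
  rw [hnβ] at hnint
  have hpowL : ((n : D.L) * β) ^ p = algebraMap D.K D.L ((n : D.K) ^ p * α) := by
    rw [mul_pow, h.pow_eq, map_mul, map_pow, map_intCast]
  have haint : IsIntegral ℤ ((n : D.K) ^ p * α) := by
    have h1 : IsIntegral ℤ (algebraMap D.K D.L ((n : D.K) ^ p * α)) := by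
      rw [← hpowL]; exact hnint.pow p
    exact (isIntegral_algebraMap_iff (algebraMap D.K D.L).injective).mp h1
  refine ⟨⟨(n : D.L) * β, hnint⟩, ⟨(n : D.K) ^ p * α, haint⟩, ?_, ?_, ?_, ?_⟩
  · intro h0
    have : ((n : D.K) ^ p * α) = 0 := congrArg (fun z : 𝓞 D.K => (z : D.K)) h0
    exact mul_ne_zero (pow_ne_zero _ hnK) hα0 this
  · apply NumberField.RingOfIntegers.coe_injective
    rw [map_pow]
    exact hpowL
  · rintro ⟨γ, hγ⟩
    apply h.not_pow
    refine ⟨γ / (n : D.K), ?_⟩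
    have hγ' : (n : D.K) ^ p * α = γ ^ p := hγ
    rw [div_pow, ← hγ']
    field_simp
  · intro σ b ζ hζ hσζ
    set d : (ZMod p)ˣ := cycloGalEquiv p D.K σ with hd
    obtain ⟨s, hs, hconj⟩ := D.lift d
    have hσd : (cycloGalEquiv p D.K).symm d = σ := by rw [hd, MulEquiv.symm_apply_apply]
    rw [hσd] at hs
    -- `d = b` in `ZMod p`
    have hdb : ((d : ZMod p)).val ≡ b [MOD p] := by
      have h1 : σ ζ = ζ ^ ((d : ZMod p)).val :=
        apply_eq_pow_cycloGalEquiv p D.K σ hζ.pow_eq_one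
      rw [hσζ] at h1
      have h2 := ((hζ.isOfFinOrder hp.ne_zero).pow_eq_pow_iff_modEq).mp h1
      rw [← hζ.eq_orderOf] at h2
      exact h2.symm
    have hdb' : (d : ZMod p) = (b : ZMod p) := by
      have := (ZMod.natCast_eq_natCast_iff _ _ _).mpr hdb
      rwa [ZMod.natCast_val, ZMod.cast_id', id] at this
    have hσ : ∀ ξ : D.K, ξ ^ p = 1 → (σ : D.K →+* D.K) ξ = ξ ^ b := by
      intro ξ hξ
      have : NeZero p := ⟨hp.ne_zero⟩
      obtain ⟨i, -, rfl⟩ := hζ.eq_pow_of_pow_eq_one hξ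
      show σ (ζ ^ i) = (ζ ^ i) ^ b
      rw [map_pow, hσζ, ← pow_mul, ← pow_mul, mul_comm]
    have he : ¬ p ∣ (((d⁻¹ : (ZMod p)ˣ) : ZMod p)).val := by
      intro hdvd
      have h0 : (((d⁻¹ : (ZMod p)ˣ) : ZMod p)) = 0 := by
        have := (ZMod.natCast_eq_zero_iff _ _).mpr hdvd
        rwa [ZMod.natCast_val, ZMod.cast_id', id] at this
      exact (d⁻¹).ne_zero h0
    have hem : (((d⁻¹ : (ZMod p)ˣ) : ZMod p)).val * b ^ 2 ≡ b [MOD p] := by
      rw [← ZMod.natCast_eq_natCast_iff]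
      push_cast
      rw [ZMod.natCast_val, ZMod.cast_id', id, ← hdb', sq, ← mul_assoc,
        inv_mul_cancel₀ (Units.ne_zero d), one_mul]
    obtain ⟨c, hc⟩ := Fermat.Agent.Lib.KummerGen.exists_eq_pow_mul_of_conj hp D.finrank_eq h s
      (σ : D.K →+* D.K) hs _ b (b ^ 2) hconj hσ he hem
    have hc' : σ α = c ^ p * α ^ (b ^ 2) := hc
    refine ⟨c * (n : D.K) / (n : D.K) ^ (b ^ 2), ?_⟩
    show σ ((n : D.K) ^ p * α) = ((n : D.K) ^ p * α) ^ (b ^ 2) * _
    rw [map_mul, map_pow, map_intCast, hc', mul_pow, div_pow, mul_pow, ← pow_mul, ← pow_mul]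
    have hne : ((n : D.K) ^ (b ^ 2 * p)) ≠ 0 := pow_ne_zero _ hnK
    field_simp
    ring

end Fermat.Agent.S14.KummerGenAlt
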