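import Fermat.Agent.S14.Plan
import Fermat.Agent.S14.KummerGenAlt
import Fermat.Agent.Lib.UnramPow
import Fermat.Agent.Lib.SplitPrimePow

/-!
# S14 bridge, [KG] assembly: a split field datum yields a singular primary number

For a field datum `D` (an unramified cyclic degree `p` extension `L / K` of `K = ℚ(ζ_p)` on which
`Gal(K/ℚ)` acts through `ω⁻¹`) in which the primes over `p` split completely, the Kummer generator
of `L / K` (`[KG-a]`, `S14/KummerGenAlt.lean`), divided by the right power of `1 - ζ`, is singular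
primary in the sense of `Plan.IsSingularPrimary`: its ideal is a `p`-th power (`[KG-b]`,
`Lib/UnramPow.lean`) and it is a `p`-th power modulo `(1 - ζ) ^ 3` (`[KG-c]`,
`Lib/SplitPrimePow.lean`).  This proves `Plan.KummerStmt p`.
-/

set_option autoImplicit false

open scoped NumberField nonZeroDivisors Pointwise

namespace Fermat.Agent.S14.Kummer

open Fermat.Agent.S14.Plan

section Normalise

variable {K : Type} [Field K] [NumberField K]

/-- If `(a) = 𝔞 ^ p` and `a = π ^ m * α` with `π` prime not dividing `α`, then `p ∣ m`. -/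
theorem dvd_exponent_of_span_eq_pow {p : ℕ} (hp : p ≠ 0) {π a α : 𝓞 K} (hπ : Prime π) {m : ℕ}
    (ha : a = π ^ m * α) (hα : ¬ π ∣ α) {𝔞 : Ideal (𝓞 K)} (h𝔞 : Ideal.span {a} = 𝔞 ^ p) :
    p ∣ m := by
  have hPprime : (Ideal.span {π} : Ideal (𝓞 K)).IsPrime :=
    (Ideal.span_singleton_prime hπ.ne_zero).2 hπ
  have hPne : (Ideal.span {π} : Ideal (𝓞 K)) ≠ ⊥ := by
    simpa [Ideal.span_singleton_eq_bot] using hπ.ne_zero
  have hP : Prime (Ideal.span {π} : Ideal (𝓞 K)) := Ideal.prime_of_isPrime hPne hPprime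
  have h1 : emultiplicity (Ideal.span {π} : Ideal (𝓞 K)) (Ideal.span {a}) = m := by
    rw [ha, ← Ideal.span_singleton_mul_span_singleton, ← Ideal.span_singleton_pow,
      emultiplicity_mul hP, emultiplicity_pow_self_of_prime hP]
    have : emultiplicity (Ideal.span {π} : Ideal (𝓞 K)) (Ideal.span {α}) = 0 := by
      rw [emultiplicity_eq_zero, Ideal.dvd_iff_le, Ideal.span_singleton_le_span_singleton]
      exact hα
    rw [this, add_zero]
  rw [h𝔞, emultiplicity_pow hP] at h1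
  by_cases htop : emultiplicity (Ideal.span {π} : Ideal (𝓞 K)) 𝔞 = ⊤
  · rw [htop] at h1
    exfalso
    have : (p : ℕ∞) * ⊤ = ⊤ := ENat.mul_top (by exact_mod_cast hp)
    rw [this] at h1
    exact ENat.top_ne_natCast m h1
  · obtain ⟨e, he⟩ := ENat.ne_top_iff_exists.mp htop
    rw [← he] at h1
    refine ⟨e, ?_⟩
    exact_mod_cast h1.symm

end Normalise


/-- The assembly: the Kummer generator of a split field datum, normalised at `1 - ζ`, is
singular primary. -/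
theorem kummerStmt (p : ℕ) [Fact p.Prime] : KummerStmt p := by
  intro h3 D hD
  have hp : p.Prime := Fact.out
  have hζ0 : IsPrimitiveRoot (IsCyclotomicExtension.zeta p ℚ D.K) p :=
    IsCyclotomicExtension.zeta_spec p ℚ D.K
  obtain ⟨ζ, hζdef⟩ : ∃ ζ : 𝓞 D.K, ζ = hζ0.toInteger := ⟨_, rfl⟩
  have hζ : IsPrimitiveRoot ζ p := hζdef ▸ hζ0.toInteger_isPrimitiveRoot
  have hπ' : Prime (ζ - 1) := hζdef ▸ hζ0.zeta_sub_one_prime'
  have hπ : Prime (1 - ζ) := by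
    have h : (1 - ζ) = -(ζ - 1) := by ring
    rw [h]; exact hπ'.neg
  have hπp : (1 - ζ) ∣ (p : 𝓞 D.K) := by
    have h1 : (ζ - 1) ∣ (p : 𝓞 D.K) := hζdef ▸ hζ0.toInteger_sub_one_dvd_prime'
    have h : (1 - ζ) = -(ζ - 1) := by ring
    rw [h]; exact (neg_dvd).mpr h1
  obtain ⟨θ, a, ha0, hθ, hnp, heig⟩ :=
    Fermat.Agent.S14.KummerGenAlt.exists_kummer_generator p D
  obtain ⟨𝔞, h𝔞⟩ := Fermat.Agent.Lib.UnramPow.exists_ideal_pow_eq_span D.K D.L D.unram p hp.pos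
    a ha0 θ hθ
  obtain ⟨m, α, hα, ham⟩ := WfDvdMonoid.max_power_factor ha0 hπ.irreducible
  obtain ⟨t, rfl⟩ := dvd_exponent_of_span_eq_pow hp.ne_zero hπ ham hα h𝔞
  have hα0 : α ≠ 0 := fun h => hα (h ▸ dvd_zero _)
  -- the normalised root
  set πL : 𝓞 D.L := algebraMap (𝓞 D.K) (𝓞 D.L) (1 - ζ) with hπL
  have hπL0 : (πL : D.L) ≠ 0 := by
    intro h
    have h1 : πL = 0 := by exact_mod_cast h
    rw [hπL] at h1
    exact hπ.ne_zero ((injective_iff_map_eq_zero _).1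
      (FaithfulSMul.algebraMap_injective (𝓞 D.K) (𝓞 D.L)) _ h1)
  have hxp : ((θ : D.L) / (πL : D.L) ^ t) ^ p = ((algebraMap (𝓞 D.K) (𝓞 D.L) α : 𝓞 D.L) : D.L) := by
    have h1 : ((θ : D.L)) ^ p = ((algebraMap (𝓞 D.K) (𝓞 D.L) a : 𝓞 D.L) : D.L) := by
      exact_mod_cast congrArg (fun z : 𝓞 D.L => (z : D.L)) hθ
    rw [div_pow, h1, ham, map_mul, map_pow, ← hπL]
    push_cast
    rw [← pow_mul, mul_comm t p]
    field_simp
  have hxint : IsIntegral ℤ ((θ : D.L) / (πL : D.L) ^ t) := by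
    refine IsIntegral.of_pow hp.pos ?_
    rw [hxp]
    exact NumberField.RingOfIntegers.isIntegral_coe _
  set θ' : 𝓞 D.L := ⟨(θ : D.L) / (πL : D.L) ^ t, hxint⟩ with hθ'def
  have hθ' : θ' ^ p = algebraMap (𝓞 D.K) (𝓞 D.L) α := by
    apply NumberField.RingOfIntegers.coe_injective
    rw [map_pow]
    exact hxp
  obtain ⟨𝔞', h𝔞'⟩ := Fermat.Agent.Lib.UnramPow.exists_ideal_pow_eq_span D.K D.L D.unram p hp.pos
    α hα0 θ' hθ'
  -- the prime over `1 - ζ`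
  have hPprime : (Ideal.span {1 - ζ} : Ideal (𝓞 D.K)).IsPrime :=
    (Ideal.span_singleton_prime hπ.ne_zero).2 hπ
  obtain ⟨⟨Q, hQprime, hQover⟩⟩ := Ideal.nonempty_primesOver (S := 𝓞 D.L)
    (Ideal.span {1 - ζ} : Ideal (𝓞 D.K))
  have hQunder : Q.under (𝓞 D.K) = Ideal.span {1 - ζ} := hQover.over.symm
  have hπQ : πL ∈ Q := by
    have : (1 - ζ) ∈ Q.under (𝓞 D.K) := hQunder ▸ Ideal.mem_span_singleton_self _
    exact this
  have hQ0 : Q ≠ ⊥ := by
    rintro rfl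
    have h1 : πL = 0 := by simpa using hπQ
    exact hπL0 (by exact_mod_cast congrArg (fun z : 𝓞 D.L => (z : D.L)) h1)
  have hpQ : (p : 𝓞 D.L) ∈ Q := by
    have h1 : (p : 𝓞 D.K) ∈ Q.under (𝓞 D.K) := by
      rw [hQunder, Ideal.mem_span_singleton]; exact hπp
    have h2 : algebraMap (𝓞 D.K) (𝓞 D.L) (p : 𝓞 D.K) ∈ Q := h1
    simpa using h2
  have hsplit := hD Q hQprime hpQ
  obtain ⟨y, hy⟩ := Fermat.Agent.Lib.SplitPrimePow.exists_sub_mem_pow D.K D.L Q hQ0 hsplit 3 θ'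
  have hunder3 := Fermat.Agent.Lib.SplitPrimePow.under_pow_eq D.K D.L Q hQ0 hsplit 3
  refine ⟨ζ, α, hζ, ⟨?_, ?_, ⟨𝔞', h𝔞'⟩, ?_, ⟨y, ?_⟩⟩⟩
  · -- not a `p`-th power
    rintro ⟨β, hβ⟩
    apply hnp
    refine ⟨((1 - ζ : 𝓞 D.K) : D.K) ^ t * β, ?_⟩
    rw [ham, mul_pow, ← hβ, ← pow_mul, mul_comm t p]
    push_cast
    ring
  · -- eigen law
    intro σ b hσ
    have hζK : IsPrimitiveRoot (ζ : D.K) p :=
      hζ.map_of_injective NumberField.RingOfIntegers.coe_injective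
    obtain ⟨γ, hγ⟩ := heig σ b (ζ : D.K) hζK hσ
    have hπK0 : ((1 - ζ : 𝓞 D.K) : D.K) ≠ 0 := by
      intro h
      exact hπ.ne_zero (by exact_mod_cast h)
    have hσπ0 : σ ((1 - ζ : 𝓞 D.K) : D.K) ≠ 0 := by
      rw [Ne, map_eq_zero_iff σ σ.injective]; exact hπK0
    refine ⟨((1 - ζ : 𝓞 D.K) : D.K) ^ (t * b ^ 2) * γ / σ ((1 - ζ : 𝓞 D.K) : D.K) ^ t, ?_⟩
    have haK : (a : D.K) = ((1 - ζ : 𝓞 D.K) : D.K) ^ (p * t) * (α : D.K) := by
      rw [ham]; push_cast; ring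
    rw [haK, map_mul, map_pow] at hγ
    have key : σ (α : D.K) * σ ((1 - ζ : 𝓞 D.K) : D.K) ^ (p * t) =
        (((1 - ζ : 𝓞 D.K) : D.K) ^ (p * t) * (α : D.K)) ^ (b ^ 2) * γ ^ p := by
      rw [mul_comm]; exact hγ
    rw [div_pow, mul_pow, ← pow_mul, ← pow_mul, mul_div_assoc', eq_div_iff (pow_ne_zero _ hσπ0),
      mul_comm t p, key]
    ring
  · -- prime to `1 - ζ`
    rw [Ideal.mem_span_singleton]; exact hα
  · -- a `p`-th power modulo `(1 - ζ) ^ 3`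
    have h1 : algebraMap (𝓞 D.K) (𝓞 D.L) (α - y ^ p) ∈ Q ^ 3 := by
      rw [map_sub, map_pow, ← hθ']
      exact Ideal.mem_of_dvd _ (sub_dvd_pow_sub_pow _ _ p) hy
    have h2 : α - y ^ p ∈ (Q ^ 3).under (𝓞 D.K) := h1
    rw [hunder3, hQunder, Ideal.span_singleton_pow] at h2
    exact h2

end Fermat.Agent.S14.Kummer
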