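import Fermat.Agent.S14.Plan
import Fermat.Agent.S14.KernelSplit
import Fermat.Agent.S14.Field
import Fermat.Agent.S14.Kummer

/-!
# S14, Thaine route: the closed bridge

`ExtVanishingCts p` follows from the single arithmetic statement `Plan.NoSingularPrimaryStmt p`
(there is no singular primary number of `ω²`-type in `ℚ(ζ_p)`): a non-split admissible extension
gives a split kernel datum (`KernelSplit.lean`), hence a field datum split over `p`
(`Field.lean`), hence a singular primary number (`Kummer.lean`).
-/

set_option autoImplicit false

namespace Fermat.Agent.S14.ThaineBridge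

open ExtCitation

/-- The bridge: no singular primary number of `ω²`-type implies the vanishing of the admissible
extension classes. -/
theorem extVanishingCts_of_noSingularPrimary {p : ℕ} [Fact p.Prime] (h3 : 3 ≤ p)
    (hN : Fermat.Agent.S14.Plan.NoSingularPrimaryStmt p) : ExtVanishingCts p :=
  Fermat.Agent.S14.Plan.extVanishingCts_of_thaine h3
    (Fermat.Agent.S14.KernelSplit.kernelSplitStmt p)
    (Fermat.Agent.S14.Field.fieldSplitStmt p)
    (Fermat.Agent.S14.Kummer.kummerStmt p) hN

end Fermat.Agent.S14.ThaineBridge
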