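import Fermat.Agent.S14.Plan

/-!
# S14, package [Core]: Artin reciprocity and Stickelberger exclude every field datum

Given a field datum (`K = ℚ(ζ_p)`, `L / K` Galois of degree `p`, unramified at every finite
prime, and lifts `s` of the automorphisms `σ_d` of `K` with `s τ s⁻¹ = τ ^ (d⁻¹)`), an Artin map
`Art : Cl(K) → Gal(L/K)` (surjective, sending the class of a prime to its Frobenius) is
equivariant: `Art (σ_d c) = Art c ^ (d⁻¹)` (transport of Frobenius elements along `s` plus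
uniqueness of Frobenius elements in the unramified case).  Composing with a logarithm
`Gal(L/K) ≃ ℤ/p` gives a nonzero functional `φ` on `Cl(K)/p` with `φ (σ_d a) = d⁻¹ φ a`, and the
eigen-projector `b = ∑_d d • σ_d a` is then a nonzero `ω^(p-2)`-eigenvector, which Stickelberger
forbids.

Main results:
* `false_of_artinAt` : the pointwise form (Artin map only for the given `L / K`);
* `false_of_artinAtDatum` : the same for a `Plan.FieldDatum`;
* `coreStmt : Plan.CoreStmt p` and `coreCycStmt : Plan.CoreCycStmt p`.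
-/

set_option autoImplicit false

open scoped NumberField nonZeroDivisors

namespace Fermat.Agent.S14.Core

open Fermat.Agent.S14 JacobiSumStickelberger

/-! ### The class group is generated by the classes of prime ideals -/

theorem monoidHom_eq_of_eq_on_primes {R : Type*} [CommRing R] [IsDedekindDomain R]
    {G : Type*} [Monoid G] (f g : ClassGroup R →* G)
    (h : ∀ P : (Ideal R)⁰, (P : Ideal R).IsPrime →
      f (ClassGroup.mk0 P) = g (ClassGroup.mk0 P)) : f = g := by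
  refine MonoidHom.ext fun c => ?_
  obtain ⟨I, rfl⟩ := ClassGroup.mk0_surjective c
  obtain ⟨I, hI⟩ := I
  revert hI
  refine UniqueFactorizationMonoid.induction_on_prime
    (P := fun I => ∀ hI : I ∈ (Ideal R)⁰,
      f (ClassGroup.mk0 ⟨I, hI⟩) = g (ClassGroup.mk0 ⟨I, hI⟩)) I ?_ ?_ ?_
  · intro hI
    exact absurd rfl (mem_nonZeroDivisors_iff_ne_zero.mp hI)
  · intro x hx hI
    have h1 : (⟨x, hI⟩ : (Ideal R)⁰) = 1 :=
      Subtype.ext ((Ideal.isUnit_iff.mp hx).trans Ideal.one_eq_top.symm)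
    rw [h1, map_one, map_one, map_one]
  · intro a q ha hq ih hI
    have haI : a ∈ (Ideal R)⁰ := mem_nonZeroDivisors_iff_ne_zero.mpr ha
    have hqI : q ∈ (Ideal R)⁰ := mem_nonZeroDivisors_iff_ne_zero.mpr hq.ne_zero
    have h1 : (⟨q * a, hI⟩ : (Ideal R)⁰) = ⟨q, hqI⟩ * ⟨a, haI⟩ := rfl
    rw [h1, map_mul, map_mul, map_mul, ih haI, h ⟨q, hqI⟩ (Ideal.isPrime_of_prime hq)]

/-! ### Transport of Frobenius elements along a semilinear automorphism -/

section Transport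

variable {K L : Type} [Field K] [Field L] [NumberField K] [NumberField L] [Algebra K L]
  [IsGalois K L]

omit [NumberField K] [NumberField L] [IsGalois K L] in
theorem under_comap_symm (g : 𝓞 K ≃+* 𝓞 K) (S : 𝓞 L ≃+* 𝓞 L)
    (hcomm : ∀ x : 𝓞 K, S (algebraMap (𝓞 K) (𝓞 L) x) = algebraMap (𝓞 K) (𝓞 L) (g x))
    (Q : Ideal (𝓞 L)) :
    (Q.comap (S.symm : 𝓞 L →+* 𝓞 L)).under (𝓞 K) =
      (Q.under (𝓞 K)).map (g : 𝓞 K →+* 𝓞 K) := by
  have hsymm : ∀ x : 𝓞 K, S.symm (algebraMap (𝓞 K) (𝓞 L) x) =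
      algebraMap (𝓞 K) (𝓞 L) (g.symm x) := by
    intro x
    rw [RingEquiv.symm_apply_eq, hcomm, RingEquiv.apply_symm_apply]
  have hmap : (Q.under (𝓞 K)).map (g : 𝓞 K →+* 𝓞 K) =
      (Q.under (𝓞 K)).comap (g.symm : 𝓞 K →+* 𝓞 K) := by
    rw [Ideal.comap_coe, Ideal.map_coe]
    exact (Ideal.comap_symm g).symm
  rw [hmap]
  ext x
  rw [Ideal.under_def, Ideal.mem_comap, Ideal.mem_comap, Ideal.mem_comap, Ideal.under_def,
    Ideal.mem_comap]
  show S.symm (algebraMap (𝓞 K) (𝓞 L) x) ∈ Q ↔ algebraMap (𝓞 K) (𝓞 L) (g.symm x) ∈ Q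
  rw [hsymm]

theorem isArithFrobAt_transport (g : 𝓞 K ≃+* 𝓞 K) (S : 𝓞 L ≃+* 𝓞 L)
    (hcomm : ∀ x : 𝓞 K, S (algebraMap (𝓞 K) (𝓞 L) x) = algebraMap (𝓞 K) (𝓞 L) (g x))
    (τ τ' : L ≃ₐ[K] L) (hconj : ∀ x : 𝓞 L, S (τ • S.symm x) = τ' • x)
    (Q : Ideal (𝓞 L)) (h : IsArithFrobAt (𝓞 K) τ Q) :
    IsArithFrobAt (𝓞 K) τ' (Q.comap (S.symm : 𝓞 L →+* 𝓞 L)) := by
  intro x
  have hcard : Nat.card (𝓞 K ⧸ (Q.comap (S.symm : 𝓞 L →+* 𝓞 L)).under (𝓞 K)) =
      Nat.card (𝓞 K ⧸ Q.under (𝓞 K)) := by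
    rw [under_comap_symm g S hcomm Q]
    exact (Nat.card_congr (Ideal.quotientEquiv (Q.under (𝓞 K))
      ((Q.under (𝓞 K)).map (g : 𝓞 K →+* 𝓞 K)) g rfl).toEquiv).symm
  rw [hcard, MulSemiringAction.toAlgHom_apply, Ideal.mem_comap]
  have h1 := h (S.symm x)
  rw [MulSemiringAction.toAlgHom_apply] at h1
  have h2 : (S.symm : 𝓞 L →+* 𝓞 L) (τ' • x - x ^ Nat.card (𝓞 K ⧸ Q.under (𝓞 K))) =
      τ • S.symm x - S.symm x ^ Nat.card (𝓞 K ⧸ Q.under (𝓞 K)) := by
    rw [map_sub, map_pow, ← hconj x]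
    simp
  rw [h2]
  exact h1

end Transport

/-! ### The abstract eigen-projector -/

theorem exists_eigenvector {p : ℕ} [Fact p.Prime] {A : Type*} [AddCommGroup A]
    [Module (ZMod p) A] (ρ : (ZMod p)ˣ →* Module.End (ZMod p) A) (φ : A →ₗ[ZMod p] ZMod p)
    (hφ : ∀ (d : (ZMod p)ˣ) (a : A), φ (ρ d a) = ((d⁻¹ : (ZMod p)ˣ) : ZMod p) * φ a)
    (a : A) (ha : φ a ≠ 0) :
    ∃ b : A, Stickelberger.IsOmegaEigenvector ρ (p - 2) b ∧ b ≠ 0 := by
  have hp : p.Prime := Fact.out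
  refine ⟨∑ d : (ZMod p)ˣ, (d : ZMod p) • ρ d a, ?_, ?_⟩
  · intro d'
    have hpow : ((d' : ZMod p)) ^ (p - 2) = ((d'⁻¹ : (ZMod p)ˣ) : ZMod p) := by
      have h1 : d' ^ (p - 1) = 1 := ZMod.units_pow_card_sub_one_eq_one p d'
      have h2 : d' ^ (p - 2) = d'⁻¹ := by
        rw [eq_inv_iff_mul_eq_one, ← pow_succ]
        have : p - 2 + 1 = p - 1 := by have := hp.two_le; omega
        rw [this, h1]
      rw [← h2, Units.val_pow_eq_pow_val]
    rw [hpow, map_sum, Finset.smul_sum]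
    rw [← Fintype.sum_equiv (Equiv.mulLeft d') (fun d => ((d : ZMod p)) • ρ d' (ρ d a))
      (fun e => ((d'⁻¹ : (ZMod p)ˣ) : ZMod p) • ((e : ZMod p) • ρ e a))]
    · refine Finset.sum_congr rfl fun d _ => ?_
      rw [map_smul]
    · intro d
      rw [Equiv.coe_mulLeft, map_mul, Module.End.mul_apply, smul_smul, Units.val_mul,
        ← mul_assoc, ← Units.val_mul, inv_mul_cancel, Units.val_one, one_mul]
  · intro hb
    apply ha
    have h1 : φ (∑ d : (ZMod p)ˣ, (d : ZMod p) • ρ d a) = ∑ _d : (ZMod p)ˣ, φ a := by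
      rw [map_sum]
      refine Finset.sum_congr rfl fun d _ => ?_
      rw [map_smul, hφ, smul_eq_mul, ← mul_assoc, ← Units.val_mul, mul_inv_cancel,
        Units.val_one, one_mul]
    rw [hb, map_zero, Finset.sum_const, Finset.card_univ, ZMod.card_units, nsmul_eq_mul] at h1
    have h2 : ((p - 1 : ℕ) : ZMod p) = -1 := by
      rw [Nat.cast_sub hp.one_le, Nat.cast_one, ZMod.natCast_self, zero_sub]
    rw [h2, neg_one_mul, eq_comm, neg_eq_zero] at h1
    exact h1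

/-! ### Equivariance of the Artin map -/

section Main

variable (p : ℕ) [Fact p.Prime] (K L : Type) [Field K] [Field L] [NumberField K] [NumberField L]
  [Algebra K L] [IsGalois K L] [IsCyclotomicExtension {p} ℚ K]

/-- The Artin reciprocity hypothesis for one fixed extension `L / K`. -/
def ArtinAt (K L : Type) [Field K] [Field L] [NumberField K] [NumberField L] [Algebra K L]
    [IsGalois K L] : Prop :=
  ∃ Art : ClassGroup (𝓞 K) →* (L ≃ₐ[K] L), Function.Surjective Art ∧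
    ∀ (P : (Ideal (𝓞 K))⁰) (Q : Ideal (𝓞 L)), (P : Ideal (𝓞 K)).IsPrime → Q.IsPrime →
      Q.under (𝓞 K) = P → IsArithFrobAt (𝓞 K) (Art (ClassGroup.mk0 P)) Q

theorem art_mk0_mapNonZero
    (unram : ∀ Q : Ideal (𝓞 L), Q.IsPrime → Q ≠ ⊥ → Q.inertia (L ≃ₐ[K] L) = ⊥)
    (Art : ClassGroup (𝓞 K) →* (L ≃ₐ[K] L))
    (hArt : ∀ (P : (Ideal (𝓞 K))⁰) (Q : Ideal (𝓞 L)), (P : Ideal (𝓞 K)).IsPrime → Q.IsPrime →
      Q.under (𝓞 K) = P → IsArithFrobAt (𝓞 K) (Art (ClassGroup.mk0 P)) Q)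
    (d : (ZMod p)ˣ) (s : L ≃+* L)
    (hs : ∀ x : K, s (algebraMap K L x) = algebraMap K L ((cycloGalEquiv p K).symm d x))
    (n : ℕ) (hconj : ∀ (τ : L ≃ₐ[K] L) (x : L), s (τ (s.symm x)) = (τ ^ n) x)
    (P : (Ideal (𝓞 K))⁰) (hP : (P : Ideal (𝓞 K)).IsPrime) :
    Art (ClassGroup.mk0 (Ideal.mapNonZero (clRingAction p K d) P)) =
      Art (ClassGroup.mk0 P) ^ n := by
  -- a prime of `L` over `P`
  obtain ⟨Q, -, hQprime, hQP⟩ := Ideal.exists_ideal_over_prime_of_isIntegral (P : Ideal (𝓞 K))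
    (⊥ : Ideal (𝓞 L)) (by
      rw [Ideal.comap_bot_of_injective _ (FaithfulSMul.algebraMap_injective (𝓞 K) (𝓞 L))]
      exact bot_le)
  set g : 𝓞 K ≃+* 𝓞 K := clRingAction p K d with hg
  set S : 𝓞 L ≃+* 𝓞 L := NumberField.RingOfIntegers.mapRingEquiv s with hS
  set τ : L ≃ₐ[K] L := Art (ClassGroup.mk0 P) with hτ
  have hcomm : ∀ x : 𝓞 K, S (algebraMap (𝓞 K) (𝓞 L) x) = algebraMap (𝓞 K) (𝓞 L) (g x) := by
    intro x
    apply NumberField.RingOfIntegers.ext
    show s (algebraMap K L (x : K)) = algebraMap K L ((g x : 𝓞 K) : K)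
    rw [hs]
    congr 1
    exact (algebraMap_galRestrict_apply ℤ ((cycloGalEquiv p K).symm d) x).symm
  have hconj' : ∀ x : 𝓞 L, S (τ • S.symm x) = (τ ^ n) • x := by
    intro x
    apply NumberField.RingOfIntegers.ext
    show s (τ (s.symm (x : L))) = (τ ^ n) (x : L)
    exact hconj τ x
  have hQ' : IsArithFrobAt (𝓞 K) τ Q := hArt P Q hP hQprime hQP
  have hfrob := isArithFrobAt_transport g S hcomm τ (τ ^ n) hconj' Q hQ'
  have hunder : (Q.comap (S.symm : 𝓞 L →+* 𝓞 L)).under (𝓞 K) =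
      (Ideal.mapNonZero g P : Ideal (𝓞 K)) := by
    rw [under_comap_symm g S hcomm Q, Ideal.coe_mapNonZero, Ideal.under_def, hQP]
  have hprime' : (Q.comap (S.symm : 𝓞 L →+* 𝓞 L)).IsPrime := Ideal.comap_isPrime _ _
  have hprimeP : ((Ideal.mapNonZero g P : (Ideal (𝓞 K))⁰) : Ideal (𝓞 K)).IsPrime := by
    rw [← hunder]
    exact Ideal.comap_isPrime _ _
  have hne : Q.comap (S.symm : 𝓞 L →+* 𝓞 L) ≠ ⊥ := by
    intro hbot
    rw [hbot, Ideal.under_def,
      Ideal.comap_bot_of_injective _ (FaithfulSMul.algebraMap_injective (𝓞 K) (𝓞 L))] at hunder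
    exact mem_nonZeroDivisors_iff_ne_zero.mp (Ideal.mapNonZero g P).2 hunder.symm
  have hfrob2 := hArt (Ideal.mapNonZero g P) _ hprimeP hprime' hunder
  have hmem := IsArithFrobAt.mul_inv_mem_inertia hfrob2 hfrob
  rw [unram _ hprime' hne, Subgroup.mem_bot, mul_inv_eq_one] at hmem
  exact hmem

/-- The main step: an Artin map for `L / K` gives a nonzero `ω⁻¹`-eigenvector in `Cl(K)/p`. -/
theorem exists_eigenvector_of_artinAt
    (finrank_eq : Module.finrank K L = p)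
    (unram : ∀ Q : Ideal (𝓞 L), Q.IsPrime → Q ≠ ⊥ → Q.inertia (L ≃ₐ[K] L) = ⊥)
    (lift : ∀ d : (ZMod p)ˣ, ∃ s : L ≃+* L,
      (∀ x : K, s (algebraMap K L x) =
        algebraMap K L ((cycloGalEquiv p K).symm d x)) ∧
      ∀ (τ : L ≃ₐ[K] L) (x : L),
        s (τ (s.symm x)) = (τ ^ (((d⁻¹ : (ZMod p)ˣ) : ZMod p)).val) x)
    (hA : ArtinAt K L) :
    ∃ b : ClGalModule p (𝓞 K),
      Stickelberger.IsOmegaEigenvector (clGalAction p K) (p - 2) b ∧ b ≠ 0 := by
  obtain ⟨Art, hsurj, hArt⟩ := hA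
  have hp : p.Prime := Fact.out
  -- a logarithm on the Galois group
  have hcard : Nat.card (L ≃ₐ[K] L) = p := (IsGalois.card_aut_eq_finrank K L).trans finrank_eq
  have hcyc : IsCyclic (L ≃ₐ[K] L) := isCyclic_of_prime_card hcard
  let log : (L ≃ₐ[K] L) ≃* Multiplicative (ZMod p) :=
    (zmodCyclicMulEquiv hcyc).symm.trans
      (AddEquiv.toMultiplicative (ZMod.ringEquivCongr hcard).toAddEquiv)
  let ψ : ClassGroup (𝓞 K) →* Multiplicative (ZMod p) := log.toMonoidHom.comp Art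
  have hψsurj : Function.Surjective ψ := log.surjective.comp hsurj
  -- equivariance of `ψ`
  have hequiv : ∀ (d : (ZMod p)ˣ) (c : ClassGroup (𝓞 K)),
      ψ (ClassGroup.mulEquiv (clRingAction p K d) c) =
        ψ c ^ (((d⁻¹ : (ZMod p)ˣ) : ZMod p)).val := by
    intro d
    obtain ⟨s, hs, hconj⟩ := lift d
    have hhom : ψ.comp (ClassGroup.mulEquiv (clRingAction p K d)).toMonoidHom =
        (powMonoidHom (((d⁻¹ : (ZMod p)ˣ) : ZMod p)).val).comp ψ := by
      refine monoidHom_eq_of_eq_on_primes _ _ fun P hP => ?_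
      show ψ (ClassGroup.mulEquiv (clRingAction p K d) (ClassGroup.mk0 P)) =
        ψ (ClassGroup.mk0 P) ^ (((d⁻¹ : (ZMod p)ˣ) : ZMod p)).val
      rw [ClassGroup.mulEquiv_mk0]
      show log (Art _) = log (Art _) ^ _
      rw [art_mk0_mapNonZero p K L unram Art hArt d s hs _ hconj P hP, map_pow]
    intro c
    exact DFunLike.congr_fun hhom c
  -- the induced functional on `Cl(K)/p`
  let φ0 : Additive (ClassGroup (𝓞 K)) →+ ZMod p := MonoidHom.toAdditiveLeft ψ
  have hker : nsmulRange p (Additive (ClassGroup (𝓞 K))) ≤ φ0.ker := by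
    rintro _ ⟨y, rfl⟩
    rw [AddMonoidHom.mem_ker, map_nsmul, nsmul_eq_mul, ZMod.natCast_self, zero_mul]
  let φ1 : ClGalModule p (𝓞 K) →+ ZMod p :=
    QuotientAddGroup.lift (nsmulRange p (Additive (ClassGroup (𝓞 K)))) φ0 hker
  let φ : ClGalModule p (𝓞 K) →ₗ[ZMod p] ZMod p := φ1.toZModLinearMap p
  have hφproj : ∀ c : ClassGroup (𝓞 K),
      φ (clProj p (𝓞 K) (Additive.ofMul c)) = Multiplicative.toAdd (ψ c) := fun c => rfl
  have hφ : ∀ (d : (ZMod p)ˣ) (a : ClGalModule p (𝓞 K)),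
      φ (clGalAction p K d a) = ((d⁻¹ : (ZMod p)ˣ) : ZMod p) * φ a := by
    intro d a
    obtain ⟨C, rfl⟩ := clProj_surjective p (𝓞 K) a
    obtain ⟨c, rfl⟩ := Additive.ofMul.surjective C
    have h1 : clGalAction p K d (clProj p (𝓞 K) (Additive.ofMul c)) =
        clProj p (𝓞 K) (Additive.ofMul (ClassGroup.mulEquiv (clRingAction p K d) c)) := rfl
    rw [h1, hφproj, hφproj, hequiv d c, toAdd_pow, nsmul_eq_mul, ZMod.natCast_zmod_val]
  -- an element on which the functional does not vanish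
  obtain ⟨c, hc⟩ := hψsurj (Multiplicative.ofAdd 1)
  have hne : φ (clProj p (𝓞 K) (Additive.ofMul c)) ≠ 0 := by
    rw [hφproj, hc, toAdd_ofAdd]
    have : Fact (1 < p) := ⟨hp.one_lt⟩
    exact one_ne_zero
  exact exists_eigenvector (clGalAction p K) φ hφ _ hne

/-- The core, pointwise in the fields: an Artin map for the extension `L / K` of a field datum
contradicts Stickelberger's theorem. -/
theorem false_of_artinAt (h3 : 3 ≤ p) (hS : Plan.StickStmt p)
    (finrank_eq : Module.finrank K L = p)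
    (unram : ∀ Q : Ideal (𝓞 L), Q.IsPrime → Q ≠ ⊥ → Q.inertia (L ≃ₐ[K] L) = ⊥)
    (lift : ∀ d : (ZMod p)ˣ, ∃ s : L ≃+* L,
      (∀ x : K, s (algebraMap K L x) =
        algebraMap K L ((cycloGalEquiv p K).symm d x)) ∧
      ∀ (τ : L ≃ₐ[K] L) (x : L),
        s (τ (s.symm x)) = (τ ^ (((d⁻¹ : (ZMod p)ˣ) : ZMod p)).val) x)
    (hA : ArtinAt K L) : False := by
  obtain ⟨b, hb, hb0⟩ := exists_eigenvector_of_artinAt p K L finrank_eq unram lift hA
  exact hb0 (hS (by omega) K b hb)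

end Main

/-- The Artin reciprocity hypothesis for the extension of a field datum. -/
def ArtinAtDatum {p : ℕ} [Fact p.Prime] (D : Plan.FieldDatum p) : Prop :=
  @ArtinAt D.K D.L D.fieldK D.fieldL D.nfK D.nfL D.alg D.gal

/-- The core in pointwise form: the Artin map is only needed for the extension of the datum. -/
theorem false_of_artinAtDatum (p : ℕ) [Fact p.Prime] (h3 : 3 ≤ p) (hS : Plan.StickStmt p)
    (D : Plan.FieldDatum p) (hA : ArtinAtDatum D) : False :=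
  @false_of_artinAt p _ D.K D.L D.fieldK D.fieldL D.nfK D.nfL D.alg D.gal D.cyc h3 hS
    D.finrank_eq D.unram D.lift hA

/-- `ArtinStmt` gives the Artin map of every field datum. -/
theorem artinAtDatum_of_artinStmt (p : ℕ) [Fact p.Prime] (h3 : 3 ≤ p) (hA : Plan.ArtinStmt p)
    (D : Plan.FieldDatum p) : ArtinAtDatum D := by
  let _ := D.fieldK
  let _ := D.fieldL
  let _ := D.nfK
  let _ := D.nfL
  let _ := D.alg
  have := D.gal
  have := D.cyc
  have : NeZero p := ⟨(Fact.out : p.Prime).ne_zero⟩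
  exact hA D.K D.L
    (IsCyclotomicExtension.exists_isPrimitiveRoot ℚ D.K (Set.mem_singleton p) (NeZero.ne p))
    D.finrank_eq
    (fun w => (IsCyclotomicExtension.Rat.isTotallyComplex D.K (n := p) (by omega)).isComplex w)
    D.unram

/-- **[Core]**: Artin reciprocity and Stickelberger's theorem exclude every field datum. -/
theorem coreStmt (p : ℕ) [Fact p.Prime] : Plan.CoreStmt p := fun h3 hA hS D =>
  false_of_artinAtDatum p h3 hS D (artinAtDatum_of_artinStmt p h3 hA D)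

/-- **[Core]**, cyclotomic form: the Artin map is only needed for the fields of a datum. -/
theorem coreCycStmt (p : ℕ) [Fact p.Prime] : Plan.CoreCycStmt p := fun h3 hA hS D =>
  false_of_artinAtDatum p h3 hS D (hA h3 D)

end Fermat.Agent.S14.Core
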