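import Fermat.Agent.S14.Plan
import Fermat.Agent.Lib.StickelOmega

/-!
# S14 plan, contract (c): Stickelberger

`Plan.StickStmt p` holds unconditionally: the `ω⁻¹ = ω^(p-2)`-eigenspace of
`Cl(ℚ(ζ_p)) / p` vanishes (`Lib.StickelOmega.eq_zero_of_isOmegaEigenvector`).
-/

set_option autoImplicit false

namespace Fermat.Agent.S14.Stick

/-- Contract (c) of the S14 plan. -/
theorem stickStmt (p : ℕ) [Fact p.Prime] : Plan.StickStmt p :=
  fun hp2 K _ _ _ a ha =>
    Fermat.Agent.Lib.StickelOmega.eq_zero_of_isOmegaEigenvector p hp2 K a ha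

/-- Contract [StickB] of the S14 roster, in the shape of the roster (the hypothesis is not
needed). -/
theorem stickStmt_of_jacobiFactorStmt (p : ℕ) [Fact p.Prime] (_h : Plan.JacobiFactorStmt p) :
    Plan.StickStmt p :=
  stickStmt p

end Fermat.Agent.S14.Stick
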