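import Mathlib
import Fermat.Prelude.Def_ExtCitation_AdmissibleExtension_v2
import Fermat.Prelude.Def_GroupCohomology_ContinuousUnramified
import Fermat.Agent.S14.BridgeChar

/-!
# S14 bridge, part 2: the module `F_p(χ²)^*(1)` and two generic facts

* `padicPlace_liesOverPrime` : the distinguished `p`-adic place of `ℚ̄` lies over `p`;
* `twistDual p`, `twistDual_ρ_apply` : `(extDualModule p).dualTwist χ` is `F_p(χ⁻¹)`;
* `locRes_H1π_eq_zero` : a class whose restriction is a coboundary dies under localisation.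
-/

set_option autoImplicit false

namespace Fermat.Agent.S14.Bridge

open CategoryTheory Module groupCohomology ExtCitation

local notation "Qb" => AlgebraicClosure ℚ
local notation "GQ" => (AlgebraicClosure ℚ ≃ₐ[ℚ] AlgebraicClosure ℚ)

variable (p : ℕ) [Fact p.Prime]

/-- The distinguished `p`-adic place of `ℚ̄` lies over `p`. -/
theorem padicPlace_liesOverPrime : (padicPlace p).LiesOverPrime p := by
  have hp : p.Prime := Fact.out
  unfold ValuationSubring.LiesOverPrime
  rw [ValuationSubring.mem_nonunits_iff]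
  by_contra hlt
  rw [not_lt] at hlt
  have hp0 : (p : Qb) ≠ 0 := by exact_mod_cast hp.ne_zero
  have hv0 : (padicPlace p).valuation (p : Qb) ≠ 0 := (Valuation.ne_zero_iff _).mpr hp0
  have h1 : (padicPlace p).valuation ((p : Qb)⁻¹) ≤ 1 := by
    rw [map_inv₀]
    exact inv_le_one_of_one_le₀ hlt
  have h2 : (p : Qb)⁻¹ ∈ padicPlace p := ((padicPlace p).valuation_le_one_iff _).mp h1
  rw [mem_padicPlace_iff] at h2
  have h3 : padicEmbedding p ((p : Qb)⁻¹) = ((p : PadicAlgCl p))⁻¹ := by
    rw [map_inv₀, map_natCast]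
  rw [h3, nnnorm_inv] at h2
  have h4 : ‖(p : PadicAlgCl p)‖₊ = 1 / (p : NNReal) := by
    rw [← PadicAlgCl.valuation_def]
    exact PadicAlgCl.valuation_p p
  rw [h4, one_div, inv_inv] at h2
  have h5 : (1 : NNReal) < (p : NNReal) := by exact_mod_cast hp.one_lt
  exact absurd h2 (not_le.mpr h5)



/-- `F_p(χ²)^*(1)`, the module whose `Ш¹` appears in the frozen S55 for `extDualModule p`. -/
noncomputable abbrev twistDual : Rep (ZMod p) GQ := (extDualModule p).dualTwist (cycloChar p)

/-- The action on `twistDual p` is through `χ⁻¹`. -/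
theorem twistDual_ρ_apply (g : GQ) (f : twistDual p) :
    (twistDual p).ρ g f = ((((cycloChar p g)⁻¹ : (ZMod p)ˣ) : ZMod p)) • f := by
  have h1 : (twistDual p).ρ g f =
      ((cycloChar p g : ZMod p)) • ((f : Module.Dual (ZMod p) (extDualModule p)) ∘ₗ
        (extDualModule p).ρ g⁻¹) := Rep.dualTwist_ρ_apply _ _ g f
  rw [h1]
  apply LinearMap.ext
  intro m
  rw [LinearMap.smul_apply, LinearMap.comp_apply, extDualModule_ρ_apply, map_smul, map_inv,
    LinearMap.smul_apply, smul_smul]
  congr 1
  have hu : ((cycloChar p g : ZMod p)) * (((cycloChar p g)⁻¹ : (ZMod p)ˣ) : ZMod p) = 1 := by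
    rw [← Units.val_mul, mul_inv_cancel, Units.val_one]
  calc ((cycloChar p g : ZMod p)) * ((((cycloChar p g)⁻¹ : (ZMod p)ˣ) : ZMod p)) ^ 2
      = (((cycloChar p g : ZMod p)) * (((cycloChar p g)⁻¹ : (ZMod p)ˣ) : ZMod p)) *
          (((cycloChar p g)⁻¹ : (ZMod p)ˣ) : ZMod p) := by ring
    _ = _ := by rw [hu, one_mul]

/-- The basic functional (the identity of `F_p`). -/
noncomputable def phi0 : twistDual p :=
  (LinearMap.id : ZMod p →ₗ[ZMod p] ZMod p)

theorem phi0_apply (m : extDualModule p) : (phi0 p : Module.Dual (ZMod p) (extDualModule p)) m = m := rfl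

theorem eq_smul_phi0 (f : twistDual p) :
    f = ((f : Module.Dual (ZMod p) (extDualModule p)) (1 : ZMod p)) • phi0 p := by
  apply LinearMap.ext
  intro m
  show (f : Module.Dual (ZMod p) (extDualModule p)) m = _
  rw [LinearMap.smul_apply]
  have : m = (m : ZMod p) • (1 : ZMod p) := by simp
  conv_lhs => rw [this]
  rw [map_smul]
  simp [phi0, mul_comm]


/-- A class whose restriction along `f` is a coboundary dies under the localisation map. -/
theorem locRes_H1π_eq_zero {k : Type} [Field k] {G H : Type} [Group G] [Group H] (f : H →* G)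
    (A : Rep k G) (c : cocycles₁ A) (m : A) (hm : ∀ h : H, c (f h) = A.ρ (f h) m - m) :
    (groupCohomology.map f (𝟙 (Rep.res f A)) 1).hom ((H1π A).hom c) = 0 := by
  have h1 := H1π_comp_map_apply f (𝟙 (Rep.res f A)) c
  have h2 : (groupCohomology.map f (𝟙 (Rep.res f A)) 1).hom ((H1π A).hom c) =
      (H1π (Rep.res f A)).hom ((mapCocycles₁ f (𝟙 (Rep.res f A))).hom c) := h1
  rw [h2]
  have h3 := (H1π_eq_zero_iff ((mapCocycles₁ f (𝟙 (Rep.res f A))).hom c)).2 (by
    refine ⟨m, ?_⟩
    funext h
    have := hm h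
    simp only [d₀₁_hom_apply]
    rw [coe_mapCocycles₁]
    exact this.symm)
  exact h3

end Fermat.Agent.S14.Bridge
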