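import Mathlib
import Fermat.Prelude.Def_ExtCitation_AdmissibleExtension_v2
import Fermat.Prelude.Def_GroupCohomology_ContinuousUnramified
import Fermat.Agent.S14.BridgeChar
import Fermat.Agent.S14.BridgeDual

/-!
# S14 bridge, part 3: from Poitou–Tate (S55) to the Ext-vanishing statement (S14)

Everything here is CFT-free and uses only Mathlib + Prelude definitions.

For an admissible extension `0 → C → V → V/C → 0` (`C ≅ ℤ/p` trivial, `V/C ≅ μ_p`) we choose a
generator `e` of `C` and `v₀ ∉ C`; the coordinate `a σ` of `extClassFun χ v₀ σ` is a `1`-cocycle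
with values in `F_p(χ⁻¹) = (extDualModule p).dualTwist χ`.  Its class lies in
`Ш¹_{{p}}` (`IsCoord.mem_sha`): level-constant for the fixed field of the kernel of the action
(unramified outside `p`), trivial at `∞` (averaging, `p` odd) and at `p` (`locally_split`).
If the class is trivial, the extension splits (`IsCoord.splits`).

Main result: `extVanishingCts_of_sha`.
-/

set_option autoImplicit false

namespace Fermat.Agent.S14.Bridge

open CategoryTheory Module groupCohomology ExtCitation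

local notation "Qb" => AlgebraicClosure ℚ
local notation "GQ" => (AlgebraicClosure ℚ ≃ₐ[ℚ] AlgebraicClosure ℚ)

section Core

variable {p : ℕ} [Fact p.Prime]
variable {V : Type} [AddCommGroup V] [Module (ZMod p) V] [DistribMulAction GQ V]
variable {C : Submodule (ZMod p) V}

/-- Coordinates of the extension class: `a σ` is the coordinate of `extClassFun χ v₀ σ ∈ C`
with respect to the generator `e` of `C`. -/
structure IsCoord (C : Submodule (ZMod p) V) (e v₀ : V) (a : GQ → ZMod p) : Prop where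
  adm : IsAdmissibleExtension p V C
  e_mem : e ∈ C
  e_ne : e ≠ 0
  v₀_not_mem : v₀ ∉ C
  eq : ∀ σ : GQ, extClassFun (cycloChar p) v₀ σ = a σ • e

variable {e v₀ : V} {a : GQ → ZMod p}

theorem IsCoord.smul_v₀ (h : IsCoord C e v₀ a) (σ : GQ) :
    σ • v₀ = ((cycloChar p σ : ZMod p)) • v₀ + (((cycloChar p σ : ZMod p)) * a σ) • e := by
  have h1 := h.eq σ
  unfold extClassFun at h1
  have hu : ((cycloChar p σ : ZMod p)) * (((cycloChar p σ)⁻¹ : (ZMod p)ˣ) : ZMod p) = 1 := by
    rw [← Units.val_mul, mul_inv_cancel, Units.val_one]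
  have h2 : σ • v₀ - ((cycloChar p σ : ZMod p)) • v₀ = (((cycloChar p σ : ZMod p)) * a σ) • e := by
    have := congrArg (fun x => ((cycloChar p σ : ZMod p)) • x) h1
    simp only [smul_smul, hu, one_smul] at this
    exact this
  rw [← h2]
  abel

theorem IsCoord.smul_e (h : IsCoord C e v₀ a) (σ : GQ) : σ • e = e :=
  h.adm.fixed_sub σ e h.e_mem

theorem IsCoord.coeff_eq_zero (h : IsCoord C e v₀ a) {x : ZMod p} (hx : x • e = 0) : x = 0 :=
  (smul_eq_zero.mp hx).resolve_right h.e_ne

theorem IsCoord.a_mul [SMulCommClass GQ (ZMod p) V] (h : IsCoord C e v₀ a) (σ τ : GQ) :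
    a (σ * τ) = a σ + ((((cycloChar p σ)⁻¹ : (ZMod p)ˣ) : ZMod p)) * a τ := by
  have h1 : (σ * τ) • v₀ = σ • (τ • v₀) := mul_smul σ τ v₀
  rw [h.smul_v₀ (σ * τ), h.smul_v₀ τ, smul_add, smul_comm σ _ v₀, smul_comm σ _ e, h.smul_e,
    h.smul_v₀ σ, smul_add, smul_smul, smul_smul, map_mul, Units.val_mul] at h1
  have h2 : (((cycloChar p σ : ZMod p)) * ((cycloChar p τ : ZMod p)) * a (σ * τ) -
      (((cycloChar p τ : ZMod p)) * (((cycloChar p σ : ZMod p)) * a σ) +
        ((cycloChar p τ : ZMod p)) * a τ)) • e = 0 := by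
    rw [sub_smul, add_smul, sub_eq_zero]
    have h3 : ((cycloChar p τ : ZMod p)) * ((cycloChar p σ : ZMod p)) =
        ((cycloChar p σ : ZMod p)) * ((cycloChar p τ : ZMod p)) := mul_comm _ _
    rw [h3] at h1
    exact add_left_cancel (by rw [h1]; abel)
  have h4 := h.coeff_eq_zero h2
  have hu : (((cycloChar p σ)⁻¹ : (ZMod p)ˣ) : ZMod p) * ((cycloChar p σ : ZMod p)) = 1 := by
    rw [← Units.val_mul, inv_mul_cancel, Units.val_one]
  have hv : (((cycloChar p τ)⁻¹ : (ZMod p)ˣ) : ZMod p) * ((cycloChar p τ : ZMod p)) = 1 := by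
    rw [← Units.val_mul, inv_mul_cancel, Units.val_one]
  have h5 : a (σ * τ) = (((cycloChar p σ)⁻¹ : (ZMod p)ˣ) : ZMod p) *
      ((((cycloChar p τ)⁻¹ : (ZMod p)ˣ) : ZMod p) *
        (((cycloChar p σ : ZMod p)) * ((cycloChar p τ : ZMod p)) * a (σ * τ))) := by
    have : (((cycloChar p σ)⁻¹ : (ZMod p)ˣ) : ZMod p) *
      ((((cycloChar p τ)⁻¹ : (ZMod p)ˣ) : ZMod p) *
        (((cycloChar p σ : ZMod p)) * ((cycloChar p τ : ZMod p)) * a (σ * τ))) =
        ((((cycloChar p σ)⁻¹ : (ZMod p)ˣ) : ZMod p) * ((cycloChar p σ : ZMod p))) *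
        ((((cycloChar p τ)⁻¹ : (ZMod p)ˣ) : ZMod p) * ((cycloChar p τ : ZMod p))) *
          a (σ * τ) := by ring
    rw [this, hu, hv, one_mul, one_mul]
  rw [h5, sub_eq_zero.mp h4]
  have : (((cycloChar p σ)⁻¹ : (ZMod p)ˣ) : ZMod p) *
      ((((cycloChar p τ)⁻¹ : (ZMod p)ˣ) : ZMod p) *
        (((cycloChar p τ : ZMod p)) * (((cycloChar p σ : ZMod p)) * a σ) +
          ((cycloChar p τ : ZMod p)) * a τ)) =
      ((((cycloChar p σ)⁻¹ : (ZMod p)ˣ) : ZMod p) * ((cycloChar p σ : ZMod p))) *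
        ((((cycloChar p τ)⁻¹ : (ZMod p)ˣ) : ZMod p) * ((cycloChar p τ : ZMod p))) * a σ +
      (((cycloChar p σ)⁻¹ : (ZMod p)ˣ) : ZMod p) *
        (((((cycloChar p τ)⁻¹ : (ZMod p)ˣ) : ZMod p) * ((cycloChar p τ : ZMod p))) * a τ) := by
    ring
  rw [this, hu, hv, one_mul, one_mul, one_mul]

/-- Elements acting trivially on `V` have `χ = 1` and `a = 0`. -/
theorem IsCoord.of_trivial (h : IsCoord C e v₀ a) (σ : GQ) (hσ : ∀ v : V, σ • v = v) :
    cycloChar p σ = 1 ∧ a σ = 0 := by
  have h1 := h.smul_v₀ σ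
  rw [hσ v₀] at h1
  have h2 : (1 - (cycloChar p σ : ZMod p)) • v₀ = (((cycloChar p σ : ZMod p)) * a σ) • e := by
    rw [sub_smul, one_smul]
    nth_rewrite 1 [h1]
    abel
  have hχ : (cycloChar p σ : ZMod p) = 1 := by
    by_contra hne
    have hne' : (1 - (cycloChar p σ : ZMod p)) ≠ 0 := sub_ne_zero.mpr (Ne.symm hne)
    apply h.v₀_not_mem
    have : v₀ = (1 - (cycloChar p σ : ZMod p))⁻¹ • ((((cycloChar p σ : ZMod p)) * a σ) • e) := by
      rw [← h2, smul_smul, inv_mul_cancel₀ hne', one_smul]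
    rw [this]
    exact C.smul_mem _ (C.smul_mem _ h.e_mem)
  refine ⟨Units.ext (by rw [hχ, Units.val_one]), ?_⟩
  rw [hχ, sub_self, zero_smul, one_mul] at h2
  exact h.coeff_eq_zero h2.symm

theorem IsCoord.a_one (h : IsCoord C e v₀ a) : a 1 = 0 :=
  (h.of_trivial 1 (fun v => one_smul _ v)).2

/-- The cocycle with values in `twistDual p` attached to the coordinates. -/
noncomputable def IsCoord.cocycle [SMulCommClass GQ (ZMod p) V] (h : IsCoord C e v₀ a) :
    cocycles₁ (twistDual p) :=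
  ⟨fun σ => a σ • phi0 p, (mem_cocycles₁_iff _).2 (fun g k => by
    rw [twistDual_ρ_apply, h.a_mul g k, add_smul, smul_smul, add_comm])⟩

theorem IsCoord.cocycle_apply [SMulCommClass GQ (ZMod p) V] (h : IsCoord C e v₀ a) (σ : GQ) :
    h.cocycle σ = a σ • phi0 p := rfl

/-- `C` is spanned by any of its nonzero elements. -/
theorem exists_coeff_of (hadm : IsAdmissibleExtension p V C) (he : e ∈ C) (he0 : e ≠ 0) {x : V}
    (hx : x ∈ C) : ∃ t : ZMod p, x = t • e := by
  have hp : p.Prime := Fact.out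
  have hfin : Finite C := Nat.finite_of_card_ne_zero (by rw [hadm.card_sub]; exact hp.ne_zero)
  let f : ZMod p → C := fun t => ⟨t • e, C.smul_mem t he⟩
  have hinj : Function.Injective f := by
    intro t t' htt
    have h1 : t • e = t' • e := congrArg Subtype.val htt
    have h2 : (t - t') • e = 0 := by rw [sub_smul, h1, sub_self]
    exact sub_eq_zero.mp ((smul_eq_zero.mp h2).resolve_right he0)
  have hbij : Function.Bijective f :=
    hinj.bijective_of_nat_card_le (by rw [hadm.card_sub, Nat.card_zmod])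
  obtain ⟨t, ht⟩ := hbij.2 ⟨x, hx⟩
  exact ⟨t, (congrArg Subtype.val ht).symm⟩

theorem IsCoord.exists_coeff (h : IsCoord C e v₀ a) {x : V} (hx : x ∈ C) :
    ∃ t : ZMod p, x = t • e :=
  exists_coeff_of h.adm h.e_mem h.e_ne hx

/-- Coordinates exist for every admissible extension. -/
theorem exists_isCoord (hadm : IsAdmissibleExtension p V C) :
    ∃ (e v₀ : V) (a : GQ → ZMod p), IsCoord C e v₀ a := by
  have hp : p.Prime := Fact.out
  have hfinC : Finite C := Nat.finite_of_card_ne_zero (by rw [hadm.card_sub]; exact hp.ne_zero)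
  have hnt : Nontrivial C := by
    rw [← Finite.one_lt_card_iff_nontrivial, hadm.card_sub]
    exact hp.one_lt
  obtain ⟨⟨e, he⟩, he0⟩ := exists_ne (0 : C)
  have he0' : e ≠ 0 := fun h0 => he0 (Subtype.ext h0)
  have hv : ∃ v₀ : V, v₀ ∉ C := by
    by_contra hcon
    have hcon : ∀ x : V, x ∈ C := fun x => by
      by_contra hx
      exact hcon ⟨x, hx⟩
    have htop : C = ⊤ := eq_top_iff.mpr (fun x _ => hcon x)
    have hcard : Nat.card C = Nat.card V := by
      rw [htop]
      exact Nat.card_congr (Submodule.topEquiv (R := ZMod p) (M := V)).toEquiv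
    rw [hadm.card_sub, hadm.card_total] at hcard
    have h1 : p * 1 = p * p := by rw [mul_one, ← sq]; exact hcard
    have h2 : 1 = p := Nat.eq_of_mul_eq_mul_left hp.pos h1
    exact hp.one_lt.ne h2
  obtain ⟨v₀, hv₀⟩ := hv
  have hmem : ∀ σ : GQ, extClassFun (cycloChar p) v₀ σ ∈ C := fun σ =>
    extClassFun_mem (cycloChar p) v₀ C (fun τ x => by
      rw [coe_cycloChar]; exact hadm.cyclo_quot τ x) σ
  exact ⟨e, v₀, fun σ => Classical.choose (exists_coeff_of hadm he he0' (hmem σ)),
    ⟨hadm, he, he0', hv₀, fun σ => Classical.choose_spec (exists_coeff_of hadm he he0' (hmem σ))⟩⟩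

/-- The cocycle is level-constant for a field unramified outside `p`. -/
theorem IsCoord.isLevelConstant [SMulCommClass GQ (ZMod p) V] (h : IsCoord C e v₀ a)
    (hopen : IsOpen {σ : GQ | ∀ v : V, σ • v = v}) :
    IsLevelConstantS₁ (pSet p) (⇑h.cocycle) := by
  let N : Subgroup GQ :=
    { carrier := {σ : GQ | ∀ v : V, σ • v = v}
      mul_mem' := fun {x y} hx hy v => by rw [mul_smul, hy v, hx v]
      one_mem' := fun v => one_smul _ v
      inv_mem' := fun {x} hx v => by
        have := hx v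
        rw [inv_smul_eq_iff]
        exact this.symm }
  have hN : IsOpen (N : Set GQ) := hopen
  have hclosed : IsClosed (N : Set GQ) := Subgroup.isClosed_of_isOpen N hN
  have hgal : IsGalois ℚ Qb := by
    have h0 : (DivisionRing.toRatAlgebra : Algebra ℚ (AlgebraicClosure ℚ)) =
        AlgebraicClosure.instAlgebra ℚ := Subsingleton.elim _ _
    rw [h0]
    infer_instance
  set F : IntermediateField ℚ Qb := IntermediateField.fixedField N with hF
  have hfix : F.fixingSubgroup = N := InfiniteGalois.fixingSubgroup_fixedField ⟨N, hclosed⟩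
  have hfin := (InfiniteGalois.isOpen_iff_finite F).mp (by rw [hfix]; exact hN)
  refine ⟨F, ⟨?_, fun q hq A hA σ hσ => ?_⟩, fun g s hs => ?_⟩
  · convert hfin using 1
  · rw [hfix]
    have hqp : (q : ℕ) ≠ p := by
      intro hq'
      apply hq
      rw [pSet, Finset.mem_singleton]
      exact Subtype.ext hq'
    exact fun v => h.adm.unramified_outside q q.2 hqp A hA σ hσ v
  · rw [hfix] at hs
    have hs' : ∀ v : V, s • v = v := hs
    rw [h.cocycle_apply, h.cocycle_apply, h.a_mul g s, (h.of_trivial s hs').2, mul_zero, add_zero]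

/-- Local triviality at the archimedean place. -/
theorem IsCoord.exists_arch [SMulCommClass GQ (ZMod p) V] (h : IsCoord C e v₀ a) (hp2 : p ≠ 2) :
    ∃ m : twistDual p, ∀ x : archimedeanDecomposition,
      h.cocycle (archimedeanLoc x) = (twistDual p).ρ (archimedeanLoc x) m - m := by
  have hp : p.Prime := Fact.out
  have h2 : (2 : ZMod p) ≠ 0 := by
    intro h0
    have h1 : ((2 : ℕ) : ZMod p) = 0 := by exact_mod_cast h0
    rw [ZMod.natCast_eq_zero_iff] at h1
    exact hp2 ((Nat.prime_dvd_prime_iff_eq hp Nat.prime_two).mp h1)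
  set cc : GQ := complexConjugation with hcc
  have hkey : a cc + ((((cycloChar p cc)⁻¹ : (ZMod p)ˣ) : ZMod p)) * a cc = 0 := by
    rw [← h.a_mul cc cc, complexConjugation_mul_self, h.a_one]
  refine ⟨(-(2 : ZMod p)⁻¹ * a cc) • phi0 p, fun x => ?_⟩
  have hx : ∀ n : ℤ, cc ^ n = 1 ∨ cc ^ n = cc := by
    intro n
    rcases Int.even_or_odd' n with ⟨k, rfl | rfl⟩
    · left
      rw [zpow_mul, zpow_ofNat, complexConjugation_sq, one_zpow]
    · right
      rw [zpow_add_one, zpow_mul, zpow_ofNat, complexConjugation_sq, one_zpow, one_mul]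
  obtain ⟨n, hn⟩ := Subgroup.mem_zpowers_iff.mp x.2
  have hloc : archimedeanLoc x = cc ^ n := hn.symm
  rcases hx n with h1 | h1
  · rw [hloc, h1, h.cocycle_apply, h.a_one, zero_smul, map_one, Module.End.one_apply, sub_self]
  · rw [hloc, h1, h.cocycle_apply, twistDual_ρ_apply, smul_smul, ← sub_smul]
    congr 1
    have h3 : ((((cycloChar p cc)⁻¹ : (ZMod p)ˣ) : ZMod p)) * a cc = - a cc :=
      eq_neg_of_add_eq_zero_right hkey
    have h4 : ((((cycloChar p cc)⁻¹ : (ZMod p)ˣ) : ZMod p)) * (-(2 : ZMod p)⁻¹ * a cc) -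
        -(2 : ZMod p)⁻¹ * a cc = -(2 : ZMod p)⁻¹ *
          (((((cycloChar p cc)⁻¹ : (ZMod p)ˣ) : ZMod p)) * a cc) + (2 : ZMod p)⁻¹ * a cc := by
      ring
    rw [h4, h3]
    field_simp
    ring

/-- Local triviality on a decomposition group with a stable complement. -/
theorem IsCoord.exists_local [SMulCommClass GQ (ZMod p) V] (h : IsCoord C e v₀ a)
    (A : ValuationSubring Qb) (C' : Submodule (ZMod p) V)
    (hC' : ∀ σ ∈ A.decompositionSubgroup ℚ, ∀ x ∈ C', σ • x ∈ C') (hcompl : IsCompl C C') :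
    ∃ m : twistDual p, ∀ σ ∈ A.decompositionSubgroup ℚ,
      h.cocycle σ = (twistDual p).ρ σ m - m := by
  obtain ⟨c₀, hc₀, w, hw, hsum⟩ : ∃ c₀ ∈ C, ∃ w ∈ C', c₀ + w = v₀ :=
    Submodule.mem_sup.mp (by rw [hcompl.sup_eq_top]; exact Submodule.mem_top)
  obtain ⟨t, rfl⟩ := h.exists_coeff hc₀
  refine ⟨t • phi0 p, fun σ hσ => ?_⟩
  have hw1 : σ • w - ((cycloChar p σ : ZMod p)) • w ∈ C := by
    rw [coe_cycloChar]
    exact h.adm.cyclo_quot σ w
  have hw2 : σ • w - ((cycloChar p σ : ZMod p)) • w ∈ C' :=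
    C'.sub_mem (hC' σ hσ w hw) (C'.smul_mem _ hw)
  have hw3 : σ • w = ((cycloChar p σ : ZMod p)) • w :=
    sub_eq_zero.mp ((Submodule.disjoint_def.mp hcompl.disjoint) _ hw1 hw2)
  have h1 := h.smul_v₀ σ
  rw [← hsum, smul_add, smul_comm σ t e, h.smul_e, hw3, smul_add, smul_smul] at h1
  have h2 : (t - ((cycloChar p σ : ZMod p)) * t - ((cycloChar p σ : ZMod p)) * a σ) • e = 0 := by
    rw [sub_smul, sub_smul, sub_eq_zero, sub_eq_iff_eq_add]
    have := add_right_cancel (b := ((cycloChar p σ : ZMod p)) • w)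
      (a := t • e) (c := ((cycloChar p σ : ZMod p) * t) • e +
        ((cycloChar p σ : ZMod p) * a σ) • e) (by rw [h1]; abel)
    rw [this]; abel
  have h3 := h.coeff_eq_zero h2
  have hu : (((cycloChar p σ)⁻¹ : (ZMod p)ˣ) : ZMod p) * ((cycloChar p σ : ZMod p)) = 1 := by
    rw [← Units.val_mul, inv_mul_cancel, Units.val_one]
  have h4 : a σ = (((cycloChar p σ)⁻¹ : (ZMod p)ˣ) : ZMod p) * t - t := by
    have h5 : ((cycloChar p σ : ZMod p)) * a σ = t - ((cycloChar p σ : ZMod p)) * t := by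
      rw [sub_eq_zero] at h3
      exact h3.symm
    calc a σ = ((((cycloChar p σ)⁻¹ : (ZMod p)ˣ) : ZMod p) * ((cycloChar p σ : ZMod p))) * a σ := by
          rw [hu, one_mul]
      _ = (((cycloChar p σ)⁻¹ : (ZMod p)ˣ) : ZMod p) * (((cycloChar p σ : ZMod p)) * a σ) := by
          ring
      _ = (((cycloChar p σ)⁻¹ : (ZMod p)ˣ) : ZMod p) * t -
            ((((cycloChar p σ)⁻¹ : (ZMod p)ˣ) : ZMod p) * ((cycloChar p σ : ZMod p))) * t := by
          rw [h5]; ring
      _ = _ := by rw [hu, one_mul]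
  rw [h.cocycle_apply, twistDual_ρ_apply, smul_smul, ← sub_smul, h4]

/-- A coboundary relation gives a global splitting. -/
theorem IsCoord.splits [SMulCommClass GQ (ZMod p) V] (h : IsCoord C e v₀ a) (t : ZMod p)
    (ht : ∀ σ : GQ, a σ = (((cycloChar p σ)⁻¹ : (ZMod p)ˣ) : ZMod p) * t - t) :
    SplitsGlobally C := by
  have hp : p.Prime := Fact.out
  set w : V := v₀ - t • e with hw
  have hwC : w ∉ C := by
    intro hmem
    apply h.v₀_not_mem
    have : v₀ = w + t • e := by rw [hw]; abel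
    rw [this]
    exact C.add_mem hmem (C.smul_mem t h.e_mem)
  have hact : ∀ σ : GQ, σ • w = ((cycloChar p σ : ZMod p)) • w := by
    intro σ
    have hu : ((cycloChar p σ : ZMod p)) * (((cycloChar p σ)⁻¹ : (ZMod p)ˣ) : ZMod p) = 1 := by
      rw [← Units.val_mul, mul_inv_cancel, Units.val_one]
    rw [hw, smul_sub, smul_sub, h.smul_v₀ σ, smul_comm σ t e, h.smul_e, ht σ, smul_smul]
    have h1 : ((cycloChar p σ : ZMod p)) * ((((cycloChar p σ)⁻¹ : (ZMod p)ˣ) : ZMod p) * t - t) =
        t - ((cycloChar p σ : ZMod p)) * t := by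
      rw [mul_sub, ← mul_assoc, hu, one_mul]
    rw [h1, sub_smul]
    abel
  refine ⟨Submodule.span (ZMod p) {w}, ?_, ?_⟩
  · intro σ x hx
    obtain ⟨r, rfl⟩ := Submodule.mem_span_singleton.mp hx
    rw [smul_comm σ r w, hact σ, smul_smul]
    exact Submodule.smul_mem _ _ (Submodule.mem_span_singleton_self w)
  · have hdisj : ∀ x ∈ C, ∀ r : ZMod p, x = r • w → r = 0 := by
      intro x hx r hr
      by_contra hr0
      apply hwC
      have : w = r⁻¹ • x := by rw [hr, smul_smul, inv_mul_cancel₀ hr0, one_smul]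
      rw [this]
      exact C.smul_mem _ hx
    constructor
    · rw [Submodule.disjoint_def]
      intro x hxC hxw
      obtain ⟨r, rfl⟩ := Submodule.mem_span_singleton.mp hxw
      rw [hdisj _ hxC r rfl, zero_smul]
    · rw [codisjoint_iff, eq_top_iff]
      intro v _
      have hfinV : Finite V :=
        Nat.finite_of_card_ne_zero (by rw [h.adm.card_total]; exact pow_ne_zero 2 hp.ne_zero)
      let f : C × ZMod p → V := fun x => (x.1 : V) + x.2 • w
      have hinj : Function.Injective f := by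
        rintro ⟨c, r⟩ ⟨c', r'⟩ hcr
        have h1 : (c : V) + r • w = (c' : V) + r' • w := hcr
        have h2 : ((c : V) - (c' : V)) = (r' - r) • w := by
          rw [sub_smul, sub_eq_sub_iff_add_eq_add, h1, add_comm]
        have h3 : r' - r = 0 := hdisj _ (C.sub_mem c.2 c'.2) _ h2
        have h4 : r = r' := (sub_eq_zero.mp h3).symm
        have h5 : (c : V) = (c' : V) := by
          rw [h3, zero_smul, sub_eq_zero] at h2
          exact h2
        exact Prod.ext (Subtype.ext h5) h4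
      have hbij : Function.Bijective f :=
        hinj.bijective_of_nat_card_le (by
          rw [Nat.card_prod, h.adm.card_sub, Nat.card_zmod, h.adm.card_total, sq])
      obtain ⟨⟨c, r⟩, hcr⟩ := hbij.2 v
      rw [← hcr]
      exact Submodule.add_mem_sup c.2 (Submodule.smul_mem _ _ (Submodule.mem_span_singleton_self w))

/-- The class of the cocycle lies in `Ш¹_{{p}}(F_p(χ²)^*(1))`. -/
theorem IsCoord.mem_sha [SMulCommClass GQ (ZMod p) V] (h : IsCoord C e v₀ a) (hp2 : p ≠ 2)
    (hopen : IsOpen {σ : GQ | ∀ v : V, σ • v = v}) :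
    (H1π (twistDual p)).hom h.cocycle ∈ sha₁ (pSet p) (twistDual p) := by
  refine Submodule.mem_inf.mpr ⟨?_, ?_⟩
  · exact (mem_continuousH1S_iff _ _ _).2 ⟨h.cocycle, h.isLevelConstant hopen, rfl⟩
  · rw [LinearMap.mem_ker]
    funext v
    rw [locTotal_apply]
    rcases v with u | ⟨q, hq⟩
    · obtain ⟨m, hm⟩ := h.exists_arch hp2
      exact locRes_H1π_eq_zero archimedeanLoc (twistDual p) h.cocycle m hm
    · have hq' : q = pPrime p := Finset.mem_singleton.mp hq
      subst hq'
      obtain ⟨C', hC'1, hC'2⟩ := h.adm.locally_split (padicPlace p) (padicPlace_liesOverPrime p)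
      obtain ⟨m, hm⟩ := h.exists_local (padicPlace p) C' hC'1 hC'2
      exact locRes_H1π_eq_zero (primeLocalToGlobal (pPrime p)) (twistDual p) h.cocycle m
        (fun τ => hm _ (localGaloisToGlobal_mem_decompositionSubgroup p τ))

end Core

/-- The conclusion of the frozen S55 for `M = extDualModule p = F_p(χ²)`, `S = {p}`. -/
def PTStmt (p : ℕ) [Fact p.Prime] : Prop :=
  ∃ B : sha₁ (pSet p) ((extDualModule p).dualTwist (cycloChar p)) →ₗ[ZMod p]
      sha₂ (pSet p) (extDualModule p) →ₗ[ZMod p] ZMod p,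
    (∀ y, (∀ x, B y x = 0) → y = 0) ∧ (∀ x, (∀ y, B y x = 0) → x = 0)

/-- **S14 from Poitou–Tate.** If the Poitou–Tate pairing exists for `F_p(χ²)` and
`Ш²_{{p}}(F_p(χ²))` vanishes, then every admissible extension of `μ_p` by `ℤ/p` splits. -/
theorem extVanishingCts_of_sha (p : ℕ) [Fact p.Prime] (h3 : 3 ≤ p) (hPT : PTStmt p)
    (hC : sha₂ (pSet p) (extDualModule p) = ⊥) : ExtVanishingCts p := by
  intro V _ _ _ _ C hadm
  have hp2 : p ≠ 2 := by omega
  obtain ⟨e, v₀, a, h⟩ := exists_isCoord hadm.toIsAdmissibleExtension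
  have hx := h.mem_sha hp2 hadm.open_kernel
  obtain ⟨B, hB, -⟩ := hPT
  have hsha : ∀ y : sha₁ (pSet p) (twistDual p), y = 0 := by
    intro y
    apply hB y
    intro x
    have hall : ∀ z, z ∈ sha₂ (pSet p) (extDualModule p) → z = 0 := by
      intro z hz
      rw [hC, Submodule.mem_bot] at hz
      exact hz
    have hx0 : x = 0 := Subtype.ext (hall x.1 x.2)
    rw [hx0, map_zero]
  have hx0 : (H1π (twistDual p)).hom h.cocycle = 0 := congrArg Subtype.val (hsha ⟨_, hx⟩)
  obtain ⟨m, hm⟩ := (H1π_eq_zero_iff h.cocycle).1 hx0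
  refine h.splits ((m : Module.Dual (ZMod p) (extDualModule p)) (1 : ZMod p)) (fun σ => ?_)
  have h1 : (d₀₁ (twistDual p)).hom m σ = h.cocycle σ := congrFun hm σ
  rw [d₀₁_hom_apply, twistDual_ρ_apply, h.cocycle_apply] at h1
  have h2 := congrArg (fun f : twistDual p =>
    (f : Module.Dual (ZMod p) (extDualModule p)) (1 : ZMod p)) h1
  simp only at h2
  rw [LinearMap.sub_apply, LinearMap.smul_apply, LinearMap.smul_apply, smul_eq_mul, smul_eq_mul] at h2
  rw [h2]
  show a σ = a σ * 1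
  rw [mul_one]

/-- The frozen S55 statement, specialised to `extDualModule p` and `S = pSet p`, gives `PTStmt p`
(its remaining hypotheses `hsm`, `hMur` are discharged in `BridgeChar`). -/
theorem ptStmt_of (p : ℕ) [Fact p.Prime]
    (hS55 : (∀ m : extDualModule p, ∃ F : IntermediateField ℚ (AlgebraicClosure ℚ),
        FiniteDimensional ℚ F ∧ ∀ s ∈ F.fixingSubgroup, (extDualModule p).ρ s m = m) →
      (∀ q : Nat.Primes, q ∉ pSet p → ∀ A : ValuationSubring (AlgebraicClosure ℚ),
        A.LiesOverPrime (q : ℕ) → ∀ g ∈ A.inertiaSubgroupIn ℚ, (extDualModule p).ρ g = 1) →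
      ∃ B : sha₁ (pSet p) ((extDualModule p).dualTwist (cycloChar p)) →ₗ[ZMod p]
          sha₂ (pSet p) (extDualModule p) →ₗ[ZMod p] ZMod p,
        (∀ y, (∀ x, B y x = 0) → y = 0) ∧ (∀ x, (∀ y, B y x = 0) → x = 0)) :
    PTStmt p :=
  hS55 (hsm_extDualModule p) (hMur_extDualModule p)

end Fermat.Agent.S14.Bridge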